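/-
S26-track, chapter DIV2 (helper69), brick D2.1: the local rings of an integral scheme
as subrings of its function field.
-/
import Mathlib

set_option autoImplicit false

universe u

open AlgebraicGeometry CategoryTheory TopologicalSpace Opposite

namespace Fermat.Agent.JAC.Div2.Stalk69

variable (X : Scheme.{u}) [IsIntegral X]

/-- `O_{X,x}` as a subring of the function field of the integral scheme `X`. -/
noncomputable def stalkRing (x : X) : Subring X.functionField :=
  (algebraMap (X.presheaf.stalk x) X.functionField).range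

/-- The functions regular on `U`: the intersection of the local rings at the points of `U`. -/
noncomputable def sectionRing (U : X.Opens) : Subring X.functionField :=
  ⨅ x ∈ U, stalkRing X x

variable {X}

theorem genericPoint_mem_of_mem {U : X.Opens} {x : X} (hx : x ∈ U) : genericPoint X ∈ U :=
  ((genericPoint_spec X).mem_open_set_iff U.isOpen).mpr ⟨x, trivial, hx⟩

theorem algebraMap_mem_stalkRing (x : X) (s : X.presheaf.stalk x) :
    algebraMap (X.presheaf.stalk x) X.functionField s ∈ stalkRing X x :=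
  ⟨s, rfl⟩

theorem germ_mem_stalkRing {U : X.Opens} {x : X} (hx : x ∈ U) (s : Γ(X, U)) :
    X.presheaf.germ U (genericPoint X) (genericPoint_mem_of_mem hx) s ∈ stalkRing X x := by
  have : Nonempty U := ⟨⟨x, hx⟩⟩
  refine ⟨X.presheaf.germ U x hx s, ?_⟩
  exact Scheme.algebraMap_germ_eq_germToFunctionField X hx s

theorem mem_stalkRing_iff {x : X} {f : X.functionField} :
    f ∈ stalkRing X x ↔ ∃ (U : X.Opens) (hx : x ∈ U) (s : Γ(X, U)),
      X.presheaf.germ U (genericPoint X) (genericPoint_mem_of_mem hx) s = f := by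
  constructor
  · rintro ⟨t, rfl⟩
    obtain ⟨U, hx, s, rfl⟩ := X.presheaf.exists_germ_eq t
    have : Nonempty U := ⟨⟨x, hx⟩⟩
    exact ⟨U, hx, s, (Scheme.algebraMap_germ_eq_germToFunctionField X hx s).symm⟩
  · rintro ⟨U, hx, s, rfl⟩
    exact germ_mem_stalkRing hx s

/-- Membership in a local ring is an open condition. -/
theorem exists_opens_forall_mem_stalkRing {x : X} {f : X.functionField}
    (hf : f ∈ stalkRing X x) : ∃ U : X.Opens, x ∈ U ∧ ∀ y ∈ U, f ∈ stalkRing X y := by
  obtain ⟨U, hx, s, rfl⟩ := mem_stalkRing_iff.mp hf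
  exact ⟨U, hx, fun y hy => germ_mem_stalkRing hy s⟩

/-- If `x` specializes to `y` then `O_y ⊆ O_x`. -/
theorem stalkRing_le_of_specializes {x y : X} (h : x ⤳ y) : stalkRing X y ≤ stalkRing X x := by
  intro f hf
  obtain ⟨U, hy, s, rfl⟩ := mem_stalkRing_iff.mp hf
  exact germ_mem_stalkRing (h.mem_open U.isOpen hy) s

theorem stalkRing_genericPoint : stalkRing X (genericPoint X) = ⊤ := by
  rw [eq_top_iff]
  intro f _
  obtain ⟨U, hx, s, rfl⟩ := X.presheaf.exists_germ_eq (x := genericPoint X) f
  exact germ_mem_stalkRing hx s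

theorem mem_sectionRing_iff {U : X.Opens} {f : X.functionField} :
    f ∈ sectionRing X U ↔ ∀ x ∈ U, f ∈ stalkRing X x := by
  simp [sectionRing, Subring.mem_iInf]

theorem sectionRing_antitone {U V : X.Opens} (h : U ≤ V) : sectionRing X V ≤ sectionRing X U :=
  fun _ hf => mem_sectionRing_iff.mpr fun x hx => mem_sectionRing_iff.mp hf x (h hx)

theorem sectionRing_le_stalkRing {U : X.Opens} {x : X} (hx : x ∈ U) :
    sectionRing X U ≤ stalkRing X x :=
  fun _ hf => mem_sectionRing_iff.mp hf x hx

theorem germ_mem_sectionRing {U : X.Opens} [Nonempty U] (s : Γ(X, U)) :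
    X.germToFunctionField U s ∈ sectionRing X U :=
  mem_sectionRing_iff.mpr fun _ hx => germ_mem_stalkRing hx s

/-- **Gluing.** A rational function lying in every local ring of `U` is (the germ of)
a section over `U`. -/
theorem exists_section_of_mem_sectionRing {U : X.Opens} [Nonempty U] {f : X.functionField}
    (hf : f ∈ sectionRing X U) : ∃ s : Γ(X, U), X.germToFunctionField U s = f := by
  classical
  rw [mem_sectionRing_iff] at hf
  -- local representatives
  have key : ∀ x : U, ∃ (V : X.Opens) (hx : (x : X) ∈ V) (_ : V ≤ U) (s : Γ(X, V)),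
      X.presheaf.germ V (genericPoint X) (genericPoint_mem_of_mem hx) s = f := by
    intro x
    obtain ⟨V, hx, s, hs⟩ := mem_stalkRing_iff.mp (hf x x.2)
    refine ⟨V ⊓ U, ⟨hx, x.2⟩, inf_le_right, X.presheaf.map (homOfLE inf_le_left).op s, ?_⟩
    rw [← hs]
    exact X.presheaf.germ_res_apply (homOfLE inf_le_left) (genericPoint X) _ s
  choose V hxV hVU s hs using key
  have hcompat : TopCat.Presheaf.IsCompatible X.presheaf V s := by
    intro i j
    have hne : Nonempty (V i ⊓ V j : X.Opens) :=
      ⟨⟨genericPoint X, genericPoint_mem_of_mem (hxV i), genericPoint_mem_of_mem (hxV j)⟩⟩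
    apply Scheme.germToFunctionField_injective X (V i ⊓ V j)
    have h1 := X.presheaf.germ_res_apply (TopologicalSpace.Opens.infLELeft (V i) (V j))
      (genericPoint X) ⟨genericPoint_mem_of_mem (hxV i), genericPoint_mem_of_mem (hxV j)⟩ (s i)
    have h2 := X.presheaf.germ_res_apply (TopologicalSpace.Opens.infLERight (V i) (V j))
      (genericPoint X) ⟨genericPoint_mem_of_mem (hxV i), genericPoint_mem_of_mem (hxV j)⟩ (s j)
    exact h1.trans ((hs i).trans ((hs j).symm.trans h2.symm))
  obtain ⟨t, ht, -⟩ := X.sheaf.existsUnique_gluing' V U (fun i => homOfLE (hVU i))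
    (fun x hx => TopologicalSpace.Opens.mem_iSup.mpr ⟨⟨x, hx⟩, hxV ⟨x, hx⟩⟩) s hcompat
  refine ⟨t, ?_⟩
  obtain ⟨x⟩ := ‹Nonempty U›
  rw [← hs x, ← ht x]
  exact (X.presheaf.germ_res_apply (homOfLE (hVU x)) (genericPoint X)
    (genericPoint_mem_of_mem (hxV x)) t).symm

theorem sectionRing_eq_range (U : X.Opens) [Nonempty U] :
    sectionRing X U = (X.germToFunctionField U).hom.range := by
  apply le_antisymm
  · intro f hf
    obtain ⟨s, rfl⟩ := exists_section_of_mem_sectionRing hf
    exact ⟨s, rfl⟩
  · rintro f ⟨s, rfl⟩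
    exact germ_mem_sectionRing s

theorem mem_sectionRing_iff_exists {U : X.Opens} [Nonempty U] {f : X.functionField} :
    f ∈ sectionRing X U ↔ ∃ s : Γ(X, U), X.germToFunctionField U s = f := by
  rw [sectionRing_eq_range]; rfl


/-! ### The local ring as a ring: equivalence with the stalk, transfer of properties -/

variable (X) in
/-- The stalk at `x` is isomorphic to `stalkRing X x`. -/
noncomputable def stalkEquiv (x : X) : X.presheaf.stalk x ≃+* stalkRing X x :=
  RingEquiv.ofBijective (algebraMap (X.presheaf.stalk x) X.functionField).rangeRestrict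
    ⟨fun _ _ h => IsFractionRing.injective (X.presheaf.stalk x) X.functionField
        (congrArg Subtype.val h),
      (algebraMap (X.presheaf.stalk x) X.functionField).rangeRestrict_surjective⟩

@[simp]
theorem coe_stalkEquiv (x : X) (s : X.presheaf.stalk x) :
    (stalkEquiv X x s : X.functionField) = algebraMap (X.presheaf.stalk x) X.functionField s :=
  rfl

instance (x : X) : IsLocalRing (stalkRing X x) :=
  (stalkEquiv X x).isLocalRing

theorem uniqueFactorizationMonoid_stalkRing (x : X)
    [UniqueFactorizationMonoid (X.presheaf.stalk x)] :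
    UniqueFactorizationMonoid (stalkRing X x) :=
  (stalkEquiv X x).toMulEquiv.uniqueFactorizationMonoid inferInstance

theorem isNoetherianRing_stalkRing (x : X) [IsNoetherianRing (X.presheaf.stalk x)] :
    IsNoetherianRing (stalkRing X x) :=
  isNoetherianRing_of_ringEquiv _ (stalkEquiv X x)

/-! ### Units of the local rings -/

variable (X) in
/-- The units of `O_{X,x}` as a subgroup of `Fˣ`. -/
noncomputable def stalkUnits (x : X) : Subgroup X.functionFieldˣ where
  carrier := {u | (u : X.functionField) ∈ stalkRing X x ∧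
    ((u⁻¹ : X.functionFieldˣ) : X.functionField) ∈ stalkRing X x}
  mul_mem' := by
    rintro a b ⟨ha, ha'⟩ ⟨hb, hb'⟩
    refine ⟨?_, ?_⟩
    · rw [Units.val_mul]; exact mul_mem ha hb
    · rw [mul_inv, Units.val_mul]; exact mul_mem ha' hb'
  one_mem' := ⟨by simp, by simp⟩
  inv_mem' := by
    rintro a ⟨ha, ha'⟩
    exact ⟨ha', by simpa using ha⟩

theorem mem_stalkUnits_iff {x : X} {u : X.functionFieldˣ} :
    u ∈ stalkUnits X x ↔ (u : X.functionField) ∈ stalkRing X x ∧
      ((u⁻¹ : X.functionFieldˣ) : X.functionField) ∈ stalkRing X x :=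
  Iff.rfl

theorem val_mem_of_mem_stalkUnits {x : X} {u : X.functionFieldˣ} (h : u ∈ stalkUnits X x) :
    (u : X.functionField) ∈ stalkRing X x := h.1

theorem inv_mem_of_mem_stalkUnits {x : X} {u : X.functionFieldˣ} (h : u ∈ stalkUnits X x) :
    ((u : X.functionField))⁻¹ ∈ stalkRing X x := by
  simpa using h.2

/-- Being a unit of the local ring is an open condition. -/
theorem exists_opens_forall_mem_stalkUnits {x : X} {u : X.functionFieldˣ}
    (hu : u ∈ stalkUnits X x) : ∃ U : X.Opens, x ∈ U ∧ ∀ y ∈ U, u ∈ stalkUnits X y := by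
  obtain ⟨U, hxU, hU⟩ := exists_opens_forall_mem_stalkRing hu.1
  obtain ⟨V, hxV, hV⟩ := exists_opens_forall_mem_stalkRing hu.2
  exact ⟨U ⊓ V, ⟨hxU, hxV⟩, fun y hy => ⟨hU y hy.1, hV y hy.2⟩⟩

theorem stalkUnits_le_of_specializes {x y : X} (h : x ⤳ y) : stalkUnits X y ≤ stalkUnits X x :=
  fun _ hu => ⟨stalkRing_le_of_specializes h hu.1, stalkRing_le_of_specializes h hu.2⟩

/-- An element of `stalkRing X x` is a unit there iff it is a unit of `F` lying in
`stalkUnits`. -/
theorem isUnit_iff_mem_stalkUnits {x : X} (a : stalkRing X x) :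
    IsUnit a ↔ ∃ u : X.functionFieldˣ, u ∈ stalkUnits X x ∧ (u : X.functionField) = a := by
  constructor
  · rintro ⟨v, rfl⟩
    refine ⟨Units.map (stalkRing X x).subtype.toMonoidHom v, ⟨?_, ?_⟩, rfl⟩
    · exact (v : stalkRing X x).2
    · rw [← map_inv]
      exact ((v⁻¹ : (stalkRing X x)ˣ) : stalkRing X x).2
  · rintro ⟨u, hu, hua⟩
    refine ⟨⟨a, ⟨((u⁻¹ : X.functionFieldˣ) : X.functionField), hu.2⟩, ?_, ?_⟩, rfl⟩
    · apply Subtype.ext
      simp [← hua]
    · apply Subtype.ext
      simp [← hua]

/-- A nonzero element of `stalkRing X x` is a unit iff its inverse in `F` lies in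
`stalkRing X x`. -/
theorem isUnit_iff_inv_mem {x : X} (a : stalkRing X x) (ha : a ≠ 0) :
    IsUnit a ↔ ((a : X.functionField))⁻¹ ∈ stalkRing X x := by
  have ha' : (a : X.functionField) ≠ 0 := fun h => ha (Subtype.ext h)
  rw [isUnit_iff_mem_stalkUnits]
  constructor
  · rintro ⟨u, hu, hua⟩
    rw [← hua]
    exact inv_mem_of_mem_stalkUnits hu
  · intro h
    exact ⟨Units.mk0 _ ha', ⟨a.2, by simpa using h⟩, rfl⟩

end Fermat.Agent.JAC.Div2.Stalk69
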