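/-
S26-track, chapter DIV2 (helper69), brick D2.2: Cartier divisors on an integral scheme,
in "field form" (local equations in the function field, up to units of the local rings).
-/
import Fermat.Agent.JAC.Div2.Stalk69

set_option autoImplicit false

universe u v

open AlgebraicGeometry CategoryTheory TopologicalSpace Opposite
open Fermat.Agent.JAC.Div2.Stalk69

namespace Fermat.Agent.JAC.Div2.CaDiv69

noncomputable section

variable (X : Scheme.{u}) [IsIntegral X]

/-- A Cartier divisor on the integral scheme `X`, presented by a local equation `eq x ∈ Fˣ`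
at every point, such that near every point `x` the equation `eq x` still works
(up to units of the local rings).  Two presentations of the same divisor are *not*
identified; every notion below is invariant under changing the `eq x` by units. -/
structure CaDiv where
  /-- the local equation at `x` -/
  eq : X → X.functionFieldˣ
  /-- coherence of the local equations -/
  coh : ∀ x, ∃ V : X.Opens, x ∈ V ∧ ∀ y ∈ V, eq y / eq x ∈ stalkUnits X y

namespace CaDiv

variable {X}

@[ext]
theorem ext {D D' : CaDiv X} (h : ∀ x, D.eq x = D'.eq x) : D = D' := by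
  cases D; cases D'; congr; exact funext h

instance : Zero (CaDiv X) :=
  ⟨⟨fun _ => 1, fun x => ⟨⊤, trivial, fun y _ => by simp [one_mem]⟩⟩⟩

instance : Add (CaDiv X) :=
  ⟨fun D D' => ⟨fun x => D.eq x * D'.eq x, fun x => by
    obtain ⟨V, hxV, hV⟩ := D.coh x
    obtain ⟨V', hxV', hV'⟩ := D'.coh x
    refine ⟨V ⊓ V', ⟨hxV, hxV'⟩, fun y hy => ?_⟩
    rw [mul_div_mul_comm]
    exact mul_mem (hV y hy.1) (hV' y hy.2)⟩⟩

instance : Neg (CaDiv X) :=
  ⟨fun D => ⟨fun x => (D.eq x)⁻¹, fun x => by
    obtain ⟨V, hxV, hV⟩ := D.coh x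
    refine ⟨V, hxV, fun y hy => ?_⟩
    rw [← inv_div_inv, inv_inv, inv_inv, ← inv_div]
    exact inv_mem (hV y hy)⟩⟩

instance : Sub (CaDiv X) :=
  ⟨fun D D' => ⟨fun x => D.eq x / D'.eq x, fun x => by
    obtain ⟨V, hxV, hV⟩ := D.coh x
    obtain ⟨V', hxV', hV'⟩ := D'.coh x
    refine ⟨V ⊓ V', ⟨hxV, hxV'⟩, fun y hy => ?_⟩
    rw [div_div_div_comm]
    exact div_mem (hV y hy.1) (hV' y hy.2)⟩⟩

instance : SMul ℕ (CaDiv X) :=
  ⟨fun m D => ⟨fun x => D.eq x ^ m, fun x => by
    obtain ⟨V, hxV, hV⟩ := D.coh x
    refine ⟨V, hxV, fun y hy => ?_⟩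
    rw [← div_pow]
    exact pow_mem (hV y hy) m⟩⟩

instance : SMul ℤ (CaDiv X) :=
  ⟨fun m D => ⟨fun x => D.eq x ^ m, fun x => by
    obtain ⟨V, hxV, hV⟩ := D.coh x
    refine ⟨V, hxV, fun y hy => ?_⟩
    rw [← div_zpow]
    exact zpow_mem (hV y hy) m⟩⟩

@[simp] theorem eq_zero (x : X) : (0 : CaDiv X).eq x = 1 := rfl
@[simp] theorem eq_add (D D' : CaDiv X) (x : X) : (D + D').eq x = D.eq x * D'.eq x := rfl
@[simp] theorem eq_neg (D : CaDiv X) (x : X) : (-D).eq x = (D.eq x)⁻¹ := rfl
@[simp] theorem eq_sub (D D' : CaDiv X) (x : X) : (D - D').eq x = D.eq x / D'.eq x := rfl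
@[simp] theorem eq_nsmul (m : ℕ) (D : CaDiv X) (x : X) : (m • D).eq x = D.eq x ^ m := rfl
@[simp] theorem eq_zsmul (m : ℤ) (D : CaDiv X) (x : X) : (m • D).eq x = D.eq x ^ m := rfl

/-- The map to the (additive version of the) group of all functions `X → Fˣ`. -/
def toFun' (D : CaDiv X) : Additive (X → X.functionFieldˣ) := Additive.ofMul D.eq

theorem toFun'_injective : Function.Injective (toFun' (X := X)) := fun _ _ h =>
  ext fun x => congrFun (Additive.ofMul.injective h) x

instance : AddCommGroup (CaDiv X) :=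
  Function.Injective.addCommGroup toFun' toFun'_injective rfl (fun _ _ => rfl) (fun _ => rfl)
    (fun _ _ => rfl) (fun _ _ => rfl) (fun _ _ => rfl)

/-- The principal divisor of a nonzero rational function. -/
def principal (h : X.functionFieldˣ) : CaDiv X :=
  ⟨fun _ => h, fun x => ⟨⊤, trivial, fun y _ => by simp [one_mem]⟩⟩

@[simp] theorem eq_principal (h : X.functionFieldˣ) (x : X) : (principal h).eq x = h := rfl

theorem principal_mul (h h' : X.functionFieldˣ) :
    (principal (h * h') : CaDiv X) = principal h + principal h' := rfl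

theorem principal_one : (principal 1 : CaDiv X) = 0 := rfl

theorem principal_inv (h : X.functionFieldˣ) : (principal h⁻¹ : CaDiv X) = - principal h := rfl

/-! ### Same divisor, linear equivalence -/

/-- Two presentations give the same divisor. -/
def Same (D D' : CaDiv X) : Prop := ∀ x, D.eq x / D'.eq x ∈ stalkUnits X x

theorem Same.refl (D : CaDiv X) : Same D D := fun x => by simp [one_mem]

theorem Same.symm {D D' : CaDiv X} (h : Same D D') : Same D' D := fun x => by
  rw [← inv_div]; exact inv_mem (h x)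

theorem Same.trans {D D' D'' : CaDiv X} (h : Same D D') (h' : Same D' D'') : Same D D'' :=
  fun x => by
    rw [← div_mul_div_cancel (D.eq x) (D'.eq x) (D''.eq x)]
    exact mul_mem (h x) (h' x)

/-- Linear equivalence: `D = D' + div h` for some `h ∈ Fˣ`. -/
def LinEquiv (D D' : CaDiv X) : Prop :=
  ∃ h : X.functionFieldˣ, Same D (D' + principal h)

theorem Same.linEquiv {D D' : CaDiv X} (h : Same D D') : LinEquiv D D' :=
  ⟨1, fun x => by simpa using h x⟩

theorem LinEquiv.refl (D : CaDiv X) : LinEquiv D D := (Same.refl D).linEquiv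

theorem LinEquiv.symm {D D' : CaDiv X} (h : LinEquiv D D') : LinEquiv D' D := by
  obtain ⟨g, hg⟩ := h
  refine ⟨g⁻¹, fun x => ?_⟩
  have := inv_mem (hg x)
  simp only [eq_add, eq_principal] at this ⊢
  convert this using 1
  apply Units.ext
  push_cast
  field_simp

theorem LinEquiv.trans {D D' D'' : CaDiv X} (h : LinEquiv D D') (h' : LinEquiv D' D'') :
    LinEquiv D D'' := by
  obtain ⟨g, hg⟩ := h
  obtain ⟨g', hg'⟩ := h'
  refine ⟨g' * g, fun x => ?_⟩
  have := mul_mem (hg x) (hg' x)
  simp only [eq_add, eq_principal] at this ⊢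
  convert this using 1
  apply Units.ext
  push_cast
  field_simp

theorem LinEquiv.add {D₁ D₁' D₂ D₂' : CaDiv X} (h₁ : LinEquiv D₁ D₁') (h₂ : LinEquiv D₂ D₂') :
    LinEquiv (D₁ + D₂) (D₁' + D₂') := by
  obtain ⟨g, hg⟩ := h₁
  obtain ⟨g', hg'⟩ := h₂
  refine ⟨g * g', fun x => ?_⟩
  have := mul_mem (hg x) (hg' x)
  simp only [eq_add, eq_principal] at this ⊢
  convert this using 1
  apply Units.ext
  push_cast
  field_simp

theorem LinEquiv.nsmul {D D' : CaDiv X} (h : LinEquiv D D') (m : ℕ) :
    LinEquiv (m • D) (m • D') := by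
  obtain ⟨g, hg⟩ := h
  refine ⟨g ^ m, fun x => ?_⟩
  have := pow_mem (hg x) m
  simp only [eq_add, eq_principal, eq_nsmul] at this ⊢
  convert this using 1
  rw [div_pow, mul_pow]

theorem linEquiv_principal (h : X.functionFieldˣ) : LinEquiv (principal h : CaDiv X) 0 :=
  ⟨h, fun x => by simp [one_mem]⟩

/-! ### Effective divisors and supports -/

/-- `D` is effective: all local equations are regular. -/
def IsEffective (D : CaDiv X) : Prop := ∀ x, (D.eq x : X.functionField) ∈ stalkRing X x

theorem isEffective_zero : IsEffective (0 : CaDiv X) := fun x => by simp [one_mem]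

theorem IsEffective.add {D D' : CaDiv X} (h : D.IsEffective) (h' : D'.IsEffective) :
    (D + D').IsEffective := fun x => by
  rw [eq_add, Units.val_mul]; exact mul_mem (h x) (h' x)

theorem IsEffective.nsmul {D : CaDiv X} (h : D.IsEffective) (m : ℕ) :
    (m • D).IsEffective := fun x => by
  rw [eq_nsmul, Units.val_pow_eq_pow_val]; exact pow_mem (h x) m

theorem Same.isEffective {D D' : CaDiv X} (h : Same D D') (hD : D.IsEffective) :
    D'.IsEffective := fun x => by
  have h1 := (inv_mem (h x)).1
  have : (D'.eq x : X.functionField) = ((D.eq x / D'.eq x)⁻¹ : X.functionFieldˣ) * D.eq x := by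
    rw [← Units.val_mul]; congr 1; apply Units.ext; push_cast; field_simp
  rw [this]
  exact mul_mem h1 (hD x)

/-- The support of a Cartier divisor: the points where the local equation is not a unit. -/
def supp (D : CaDiv X) : Set X := {x | D.eq x ∉ stalkUnits X x}

theorem mem_supp_iff {D : CaDiv X} {x : X} : x ∈ D.supp ↔ D.eq x ∉ stalkUnits X x := Iff.rfl

theorem isOpen_compl_supp (D : CaDiv X) : IsOpen (D.supp)ᶜ := by
  rw [isOpen_iff_forall_mem_open]
  intro x hx
  have hx' : D.eq x ∈ stalkUnits X x := by simpa [supp] using hx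
  obtain ⟨V, hxV, hV⟩ := D.coh x
  obtain ⟨W, hxW, hW⟩ := exists_opens_forall_mem_stalkUnits hx'
  refine ⟨(V ⊓ W : X.Opens), fun y hy => ?_, (V ⊓ W).isOpen, ⟨hxV, hxW⟩⟩
  have : D.eq y = D.eq y / D.eq x * D.eq x := by simp
  simp only [Set.mem_compl_iff, mem_supp_iff, not_not]
  rw [this]
  exact mul_mem (hV y hy.1) (hW y hy.2)

theorem isClosed_supp (D : CaDiv X) : IsClosed D.supp := ⟨D.isOpen_compl_supp⟩

/-- The open complement of the support. -/
def suppCompl (D : CaDiv X) : X.Opens := ⟨(D.supp)ᶜ, D.isOpen_compl_supp⟩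

theorem mem_suppCompl_iff {D : CaDiv X} {x : X} :
    x ∈ D.suppCompl ↔ D.eq x ∈ stalkUnits X x := by
  change x ∈ (D.supp)ᶜ ↔ _
  simp [supp]

theorem Same.supp_eq {D D' : CaDiv X} (h : Same D D') : D.supp = D'.supp := by
  ext x
  simp only [mem_supp_iff, not_iff_not]
  constructor
  · intro hx
    have : D'.eq x = (D.eq x / D'.eq x)⁻¹ * D.eq x := by
      apply Units.ext; push_cast; field_simp
    rw [this]; exact mul_mem (inv_mem (h x)) hx
  · intro hx
    have : D.eq x = (D.eq x / D'.eq x) * D'.eq x := by simp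
    rw [this]; exact mul_mem (h x) hx

theorem supp_zero : (0 : CaDiv X).supp = ∅ := by
  ext x; simp [supp, one_mem]

theorem genericPoint_notMem_supp (D : CaDiv X) : genericPoint X ∉ D.supp := by
  simp only [mem_supp_iff, not_not, mem_stalkUnits_iff, stalkRing_genericPoint]
  exact ⟨trivial, trivial⟩

instance (D : CaDiv X) : Nonempty D.suppCompl :=
  ⟨⟨genericPoint X, D.genericPoint_notMem_supp⟩⟩

theorem supp_add {D D' : CaDiv X} (h : D.IsEffective) (h' : D'.IsEffective) :
    (D + D').supp = D.supp ∪ D'.supp := by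
  ext x
  simp only [Set.mem_union, mem_supp_iff, eq_add]
  constructor
  · intro hx
    by_contra hcon
    simp only [not_or, not_not] at hcon
    exact hx (mul_mem hcon.1 hcon.2)
  · rintro (hx | hx) hcon
    · refine hx ⟨h x, ?_⟩
      have : ((D.eq x)⁻¹ : X.functionFieldˣ) = (D.eq x * D'.eq x)⁻¹ * D'.eq x := by
        apply Units.ext; push_cast; field_simp
      rw [this, Units.val_mul]
      exact mul_mem hcon.2 (h' x)
    · refine hx ⟨h' x, ?_⟩
      have : ((D'.eq x)⁻¹ : X.functionFieldˣ) = (D.eq x * D'.eq x)⁻¹ * D.eq x := by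
        apply Units.ext; push_cast; field_simp
      rw [this, Units.val_mul]
      exact mul_mem hcon.2 (h x)

theorem supp_nsmul {D : CaDiv X} (h : D.IsEffective) {m : ℕ} (hm : m ≠ 0) :
    (m • D).supp = D.supp := by
  induction m with
  | zero => exact absurd rfl hm
  | succ k ih =>
    rcases Nat.eq_zero_or_pos k with rfl | hk
    · simp
    · rw [succ_nsmul, supp_add (h.nsmul k) h, ih hk.ne', Set.union_self]

/-! ### The spaces `L(D)` -/

/-- `L(D) = {f ∈ F | div f + D ≥ 0}`, as an additive subgroup of the function field. -/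
def L (D : CaDiv X) : AddSubgroup X.functionField where
  carrier := {f | ∀ x, f * D.eq x ∈ stalkRing X x}
  add_mem' := fun {f g} hf hg x => by rw [add_mul]; exact add_mem (hf x) (hg x)
  zero_mem' := fun x => by rw [zero_mul]; exact zero_mem _
  neg_mem' := fun {f} hf x => by rw [neg_mul]; exact neg_mem (hf x)

theorem mem_L_iff {D : CaDiv X} {f : X.functionField} :
    f ∈ L D ↔ ∀ x, f * D.eq x ∈ stalkRing X x := Iff.rfl

theorem Same.mem_L_iff {D D' : CaDiv X} (h : Same D D') {f : X.functionField} :
    f ∈ L D ↔ f ∈ L D' := by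
  constructor
  · intro hf x
    have : f * D'.eq x = f * D.eq x * ((D.eq x / D'.eq x)⁻¹ : X.functionFieldˣ) := by
      push_cast; field_simp
    rw [this]
    exact mul_mem (hf x) (inv_mem (h x)).1
  · intro hf x
    have : f * D.eq x = f * D'.eq x * ((D.eq x / D'.eq x : X.functionFieldˣ)) := by
      push_cast; field_simp
    rw [this]
    exact mul_mem (hf x) (h x).1

theorem Same.L_eq {D D' : CaDiv X} (h : Same D D') : L D = L D' :=
  AddSubgroup.ext fun _ => h.mem_L_iff

theorem mem_L_zero_iff {f : X.functionField} : f ∈ L (0 : CaDiv X) ↔ f ∈ sectionRing X ⊤ := by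
  simp [mem_L_iff, mem_sectionRing_iff]

theorem mul_mem_L {D : CaDiv X} {a f : X.functionField} (ha : a ∈ sectionRing X ⊤)
    (hf : f ∈ L D) : a * f ∈ L D := fun x => by
  rw [mul_assoc]
  exact mul_mem (mem_sectionRing_iff.mp ha x trivial) (hf x)

theorem mul_mem_L_add {D D' : CaDiv X} {f g : X.functionField} (hf : f ∈ L D) (hg : g ∈ L D') :
    f * g ∈ L (D + D') := fun x => by
  have : f * g * (D + D').eq x = f * D.eq x * (g * D'.eq x) := by
    rw [eq_add, Units.val_mul]; ring
  rw [this]
  exact mul_mem (hf x) (hg x)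

theorem pow_mem_L_nsmul {D : CaDiv X} {f : X.functionField} (hf : f ∈ L D) (m : ℕ) :
    f ^ m ∈ L (m • D) := fun x => by
  rw [eq_nsmul, Units.val_pow_eq_pow_val, ← mul_pow]
  exact pow_mem (hf x) m

theorem L_le_add_of_isEffective (D : CaDiv X) {E : CaDiv X} (hE : E.IsEffective) :
    L D ≤ L (D + E) := fun f hf x => by
  have : f * (D + E).eq x = f * D.eq x * E.eq x := by
    rw [eq_add, Units.val_mul]; ring
  rw [this]
  exact mul_mem (hf x) (hE x)

theorem L_nsmul_mono {D : CaDiv X} (hD : D.IsEffective) {m n : ℕ} (h : m ≤ n) :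
    L (m • D) ≤ L (n • D) := by
  obtain ⟨k, rfl⟩ := Nat.exists_eq_add_of_le h
  rw [add_nsmul]
  exact L_le_add_of_isEffective _ (hD.nsmul k)

theorem sectionRing_top_le_L {D : CaDiv X} (hD : D.IsEffective) {f : X.functionField}
    (hf : f ∈ sectionRing X ⊤) : f ∈ L D := fun x =>
  mul_mem (mem_sectionRing_iff.mp hf x trivial) (hD x)

theorem one_mem_L {D : CaDiv X} (hD : D.IsEffective) : (1 : X.functionField) ∈ L D :=
  sectionRing_top_le_L hD (one_mem _)

/-- Away from the support, elements of `L(D)` are regular. -/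
theorem mem_stalkRing_of_mem_L {D : CaDiv X} {f : X.functionField} (hf : f ∈ L D) {x : X}
    (hx : x ∈ D.suppCompl) : f ∈ stalkRing X x := by
  have hu := mem_suppCompl_iff.mp hx
  have : f = f * D.eq x * ((D.eq x)⁻¹ : X.functionFieldˣ) := by
    push_cast; field_simp
  rw [this]
  exact mul_mem (hf x) hu.2

theorem L_le_sectionRing_suppCompl (D : CaDiv X) {f : X.functionField} (hf : f ∈ L D) :
    f ∈ sectionRing X D.suppCompl :=
  mem_sectionRing_iff.mpr fun _ hx => mem_stalkRing_of_mem_L hf hx

/-- Linear equivalence and `L`: if `D = D' + div h` then `f ↦ f * h` maps `L(D)` onto `L(D')`. -/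
theorem mem_L_iff_mul_mem_L {D D' : CaDiv X} {h : X.functionFieldˣ}
    (hs : Same D (D' + principal h)) {f : X.functionField} :
    f ∈ L D ↔ f * h ∈ L D' := by
  rw [hs.mem_L_iff]
  simp only [mem_L_iff, eq_add, eq_principal, Units.val_mul]
  refine forall_congr' fun x => ?_
  rw [show f * ((D'.eq x : X.functionField) * h) = f * h * D'.eq x by ring]

end CaDiv

/-! ### Scalars: a base ring `K` acting through global regular functions -/

/-- `K` acts on the function field through functions regular everywhere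
(e.g. `X` is a `K`-scheme). -/
class RegularScalars (K : Type v) (X : Scheme.{u}) [IsIntegral X] [CommSemiring K]
    [Algebra K X.functionField] : Prop where
  algebraMap_mem : ∀ (k : K) (x : X), algebraMap K X.functionField k ∈ stalkRing X x

section Scalars

variable (K : Type v) [CommSemiring K] [Algebra K X.functionField] [RegularScalars K X]

/-- The local ring at `x` as a `K`-subalgebra of the function field. -/
def stalkAlg (x : X) : Subalgebra K X.functionField :=
  { (stalkRing X x).toSubsemiring with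
    algebraMap_mem' := fun k => RegularScalars.algebraMap_mem k x }

variable {X} in
@[simp] theorem mem_stalkAlg_iff {x : X} {f : X.functionField} :
    f ∈ stalkAlg X K x ↔ f ∈ stalkRing X x := Iff.rfl

variable {X} in
theorem algebraMap_mem_sectionRing (k : K) (U : X.Opens) :
    algebraMap K X.functionField k ∈ sectionRing X U :=
  mem_sectionRing_iff.mpr fun x _ => RegularScalars.algebraMap_mem k x

/-- The ring of functions regular on `U`, as a `K`-subalgebra of the function field. -/
def sectionAlg (U : X.Opens) : Subalgebra K X.functionField :=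
  { (sectionRing X U).toSubsemiring with
    algebraMap_mem' := fun k => algebraMap_mem_sectionRing K k U }

variable {X} in
@[simp] theorem mem_sectionAlg_iff {U : X.Opens} {f : X.functionField} :
    f ∈ sectionAlg X K U ↔ f ∈ sectionRing X U := Iff.rfl

namespace CaDiv

variable {X}

/-- `L(D)` as a `K`-submodule of the function field. -/
def LK (D : CaDiv X) : Submodule K X.functionField :=
  { (L D).toAddSubmonoid with
    smul_mem' := fun k f hf => by
      rw [Algebra.smul_def]
      exact mul_mem_L (algebraMap_mem_sectionRing K k ⊤) hf }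

@[simp] theorem mem_LK_iff {D : CaDiv X} {f : X.functionField} : f ∈ LK K D ↔ f ∈ L D := Iff.rfl

theorem LK_nsmul_mono {D : CaDiv X} (hD : D.IsEffective) {m n : ℕ} (h : m ≤ n) :
    LK K (m • D) ≤ LK K (n • D) := fun _ hf => L_nsmul_mono hD h hf

/-- If `D = D' + div h` then multiplication by `h` is a `K`-linear isomorphism
`L(D) ≃ L(D')`. -/
def LKEquivOfSame {D D' : CaDiv X} {h : X.functionFieldˣ} (hs : Same D (D' + principal h)) :
    LK K D ≃ₗ[K] LK K D' where
  toFun f := ⟨f * h, (mem_L_iff_mul_mem_L hs).mp f.2⟩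
  invFun g := ⟨g * ((h⁻¹ : X.functionFieldˣ) : X.functionField),
    (mem_L_iff_mul_mem_L hs).mpr (by
      rw [mul_assoc, ← Units.val_mul, inv_mul_cancel, Units.val_one, mul_one]; exact g.2)⟩
  map_add' f g := by ext; simp [add_mul]
  map_smul' k f := by ext; simp [Algebra.smul_def, mul_assoc]
  left_inv f := by ext; simp
  right_inv g := by ext; simp

/-- Linearly equivalent divisors have isomorphic `L`-spaces. -/
theorem LinEquiv.nonempty_LKEquiv {D D' : CaDiv X} (h : LinEquiv D D') :
    Nonempty (LK K D ≃ₗ[K] LK K D') := by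
  obtain ⟨g, hg⟩ := h
  exact ⟨LKEquivOfSame K hg⟩

theorem LinEquiv.finrank_LK_eq {K : Type v} [Field K] [Algebra K X.functionField]
    [RegularScalars K X] {D D' : CaDiv X} (h : LinEquiv D D') :
    Module.finrank K (LK K D) = Module.finrank K (LK K D') := by
  obtain ⟨e⟩ := h.nonempty_LKEquiv K
  exact e.finrank_eq

end CaDiv

end Scalars

/-! ### The scalar structure coming from a structure morphism `X ⟶ Spec K` -/

section OfHom

variable {X} {K : Type u} [CommRing K]

instance : Nonempty (⊤ : X.Opens) := ⟨⟨genericPoint X, trivial⟩⟩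

/-- The ring map `K → F` induced by `X ⟶ Spec K`. -/
def toFunctionFieldOfHom (f : X ⟶ Spec (CommRingCat.of K)) : K →+* X.functionField :=
  (X.germToFunctionField ⊤).hom.comp ((Scheme.ΓSpecIso (CommRingCat.of K)).inv ≫ f.appTop).hom

/-- The `K`-algebra structure on the function field of a `K`-scheme.  Not an instance. -/
@[reducible] def algebraOfHom (f : X ⟶ Spec (CommRingCat.of K)) : Algebra K X.functionField :=
  (toFunctionFieldOfHom f).toAlgebra

theorem regularScalars_of_hom (f : X ⟶ Spec (CommRingCat.of K)) :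
    @RegularScalars K X _ _ (algebraOfHom f) := by
  let _ := algebraOfHom f
  refine ⟨fun k x => ?_⟩
  change toFunctionFieldOfHom f k ∈ stalkRing X x
  exact mem_sectionRing_iff.mp (germ_mem_sectionRing _) x trivial

end OfHom

end

end Fermat.Agent.JAC.Div2.CaDiv69
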