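/-
S26-track, chapter DIV2 (helper69), brick D2.6: the map of function fields induced by a
dominant morphism of integral schemes, and the pullback of Cartier divisors along it.
-/
import Fermat.Agent.JAC.Div2.CaDiv69

set_option autoImplicit false

universe u v

open AlgebraicGeometry CategoryTheory TopologicalSpace Opposite
open Fermat.Agent.JAC.Div2.Stalk69 Fermat.Agent.JAC.Div2.CaDiv69

namespace Fermat.Agent.JAC.Div2.Pull69

noncomputable section

variable {X Y Z : Scheme.{u}} [IsIntegral X] [IsIntegral Y] [IsIntegral Z]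

/-- A dominant morphism of integral schemes maps the generic point to the generic point. -/
theorem map_genericPoint (g : Y ⟶ X) [IsDominant g] : g (genericPoint Y) = genericPoint X := by
  apply ((genericPoint_spec X).eq _).symm
  have h := (genericPoint_spec Y).image g.continuous
  rwa [Set.image_univ, g.denseRange.closure_range] at h

/-- The homomorphism of function fields `g^# : K(X) → K(Y)` induced by a dominant morphism
`g : Y ⟶ X` of integral schemes. -/
def pullFun (g : Y ⟶ X) [IsDominant g] : X.functionField →+* Y.functionField :=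
  (X.presheaf.stalkSpecializes (Specializes.of_eq (map_genericPoint g)) ≫
    g.stalkMap (genericPoint Y)).hom

theorem genericPoint_mem_preimage (g : Y ⟶ X) [IsDominant g] {U : X.Opens}
    (hU : genericPoint X ∈ U) : genericPoint Y ∈ g ⁻¹ᵁ U := by
  change g (genericPoint Y) ∈ U
  rw [map_genericPoint]; exact hU

/-- `g^#` on germs. -/
theorem pullFun_germ (g : Y ⟶ X) [IsDominant g] (U : X.Opens) (hU : genericPoint X ∈ U)
    (s : Γ(X, U)) :
    pullFun g (X.presheaf.germ U (genericPoint X) hU s) =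
      Y.presheaf.germ (g ⁻¹ᵁ U) (genericPoint Y) (genericPoint_mem_preimage g hU)
        (g.app U s) := by
  have hU' : g (genericPoint Y) ∈ U := genericPoint_mem_preimage g hU
  have h1 : X.presheaf.stalkSpecializes (Specializes.of_eq (map_genericPoint g))
      (X.presheaf.germ U (genericPoint X) hU s) = X.presheaf.germ U (g (genericPoint Y)) hU' s :=
    X.presheaf.germ_stalkSpecializes_apply _ _ s
  change g.stalkMap (genericPoint Y) (X.presheaf.stalkSpecializes _ _) = _
  rw [h1]
  exact g.germ_stalkMap_apply U (genericPoint Y) hU' s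

/-- `g^#` maps `O_{X, g y}` into `O_{Y, y}`. -/
theorem pullFun_mem_stalkRing (g : Y ⟶ X) [IsDominant g] {y : Y} {f : X.functionField}
    (hf : f ∈ stalkRing X (g y)) : pullFun g f ∈ stalkRing Y y := by
  obtain ⟨U, hy, s, rfl⟩ := mem_stalkRing_iff.mp hf
  rw [pullFun_germ]
  exact germ_mem_stalkRing (show y ∈ g ⁻¹ᵁ U from hy) _

/-- `g^#(O_{X, g y}) ≤ O_{Y, y}` (the form requested by the NORM chapter). -/
theorem map_stalkRing_le (g : Y ⟶ X) [IsDominant g] (y : Y) :
    (stalkRing X (g y)).map (pullFun g) ≤ stalkRing Y y := by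
  rintro _ ⟨f, hf, rfl⟩
  exact pullFun_mem_stalkRing g hf

theorem pullFun_mem_sectionRing (g : Y ⟶ X) [IsDominant g] {U : X.Opens} {f : X.functionField}
    (hf : f ∈ sectionRing X U) : pullFun g f ∈ sectionRing Y (g ⁻¹ᵁ U) :=
  mem_sectionRing_iff.mpr fun y hy =>
    pullFun_mem_stalkRing g (mem_sectionRing_iff.mp hf (g y) hy)

/-- `g^#` on units of the function fields. -/
def pullUnits (g : Y ⟶ X) [IsDominant g] : X.functionFieldˣ →* Y.functionFieldˣ :=
  Units.map (pullFun g).toMonoidHom

@[simp] theorem coe_pullUnits (g : Y ⟶ X) [IsDominant g] (u : X.functionFieldˣ) :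
    ((pullUnits g u : Y.functionFieldˣ) : Y.functionField) = pullFun g u := rfl

theorem pullUnits_mem_stalkUnits (g : Y ⟶ X) [IsDominant g] {y : Y} {u : X.functionFieldˣ}
    (hu : u ∈ stalkUnits X (g y)) : pullUnits g u ∈ stalkUnits Y y := by
  refine ⟨pullFun_mem_stalkRing g hu.1, ?_⟩
  rw [← map_inv]
  exact pullFun_mem_stalkRing g hu.2

/-- Compatibility of `g^#` with the stalk maps of `g`. -/
theorem pullFun_algebraMap (g : Y ⟶ X) [IsDominant g] (y : Y) (s : X.presheaf.stalk (g y)) :
    pullFun g (algebraMap (X.presheaf.stalk (g y)) X.functionField s) =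
      algebraMap (Y.presheaf.stalk y) Y.functionField (g.stalkMap y s) := by
  obtain ⟨U, hy, t, rfl⟩ := X.presheaf.exists_germ_eq s
  have : Nonempty U := ⟨⟨g y, hy⟩⟩
  have : Nonempty (g ⁻¹ᵁ U) := ⟨⟨y, hy⟩⟩
  rw [Scheme.algebraMap_germ_eq_germToFunctionField X hy t, g.germ_stalkMap_apply U y hy t,
    Scheme.algebraMap_germ_eq_germToFunctionField Y (show y ∈ g ⁻¹ᵁ U from hy)]
  exact pullFun_germ g U _ t

/-- The stalk maps are local: a regular function at `g y` whose pullback is a unit at `y`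
is a unit at `g y`. -/
theorem mem_stalkUnits_of_pullUnits_mem (g : Y ⟶ X) [IsDominant g] {y : Y}
    {u : X.functionFieldˣ} (hu : (u : X.functionField) ∈ stalkRing X (g y))
    (h : pullUnits g u ∈ stalkUnits Y y) : u ∈ stalkUnits X (g y) := by
  obtain ⟨s, hs⟩ := hu
  obtain ⟨t, ht⟩ := h.2
  have h1 : algebraMap (Y.presheaf.stalk y) Y.functionField (g.stalkMap y s * t) = 1 := by
    rw [map_mul, ← pullFun_algebraMap, hs, ht, ← coe_pullUnits, ← Units.val_mul,
      mul_inv_cancel, Units.val_one]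
  have h2 : g.stalkMap y s * t = 1 :=
    IsFractionRing.injective (Y.presheaf.stalk y) Y.functionField (h1.trans (map_one _).symm)
  have h3 : IsUnit (g.stalkMap y s) := IsUnit.of_mul_eq_one t h2
  have h4 : IsUnit s := isUnit_of_map_unit (g.stalkMap y).hom s h3
  obtain ⟨v, rfl⟩ := h4
  refine ⟨⟨(v : X.presheaf.stalk (g y)), hs⟩, ⟨((v⁻¹ : (X.presheaf.stalk (g y))ˣ) :
    X.presheaf.stalk (g y)), ?_⟩⟩
  rw [Units.val_inv_eq_inv_val, ← hs]
  refine (inv_eq_of_mul_eq_one_right ?_).symm
  rw [← map_mul, Units.mul_inv, map_one]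

/-! ### Functoriality of `g^#` -/

theorem pullFun_id : pullFun (𝟙 X) = RingHom.id X.functionField := by
  ext f
  obtain ⟨U, hU, s, rfl⟩ := X.presheaf.exists_germ_eq (x := genericPoint X) f
  rw [pullFun_germ]
  rfl

theorem pullFun_comp (g : Y ⟶ X) (g' : Z ⟶ Y) [IsDominant g] [IsDominant g'] :
    pullFun (g' ≫ g) = (pullFun g').comp (pullFun g) := by
  ext f
  obtain ⟨U, hU, s, rfl⟩ := X.presheaf.exists_germ_eq (x := genericPoint X) f
  rw [RingHom.comp_apply, pullFun_germ, pullFun_germ, pullFun_germ]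
  rfl

theorem pullFun_comp_apply (g : Y ⟶ X) (g' : Z ⟶ Y) [IsDominant g] [IsDominant g']
    (f : X.functionField) : pullFun (g' ≫ g) f = pullFun g' (pullFun g f) := by
  rw [pullFun_comp]; rfl

theorem pullFun_congr {g g' : Y ⟶ X} [IsDominant g] [IsDominant g'] (h : g = g') :
    pullFun g = pullFun g' := by
  subst h; rfl

/-- For an isomorphism, `g^#` is bijective with inverse `(g⁻¹)^#`. -/
theorem pullFun_hom_inv_apply (e : Y ≅ X) (f : X.functionField) :
    pullFun e.inv (pullFun e.hom f) = f := by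
  rw [← pullFun_comp_apply, pullFun_congr (g' := 𝟙 X) e.inv_hom_id, pullFun_id]; rfl

theorem pullFun_inv_hom_apply (e : Y ≅ X) (f : Y.functionField) :
    pullFun e.hom (pullFun e.inv f) = f := by
  rw [← pullFun_comp_apply, pullFun_congr (g' := 𝟙 Y) e.hom_inv_id, pullFun_id]; rfl

/-- If `g : Y ⟶ X` is a morphism of `K`-schemes, `g^#` is compatible with the `K`-structures
of `CaDiv69.toFunctionFieldOfHom`. -/
theorem pullFun_toFunctionFieldOfHom {K : Type u} [CommRing K] (g : Y ⟶ X) [IsDominant g]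
    (fX : X ⟶ Spec (CommRingCat.of K)) (fY : Y ⟶ Spec (CommRingCat.of K)) (h : g ≫ fX = fY)
    (k : K) : pullFun g (toFunctionFieldOfHom fX k) = toFunctionFieldOfHom fY k := by
  subst h
  change pullFun g (X.presheaf.germ ⊤ (genericPoint X) _ _) = Y.presheaf.germ ⊤ (genericPoint Y) _ _
  rw [pullFun_germ]
  rfl

namespace CaDiv

open Fermat.Agent.JAC.Div2.CaDiv69.CaDiv

/-- The pullback of a Cartier divisor along a dominant morphism. -/
def pull (g : Y ⟶ X) [IsDominant g] (D : CaDiv X) : CaDiv Y where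
  eq y := pullUnits g (D.eq (g y))
  coh y := by
    obtain ⟨V, hyV, hV⟩ := D.coh (g y)
    refine ⟨g ⁻¹ᵁ V, hyV, fun y' hy' => ?_⟩
    rw [← map_div]
    exact pullUnits_mem_stalkUnits g (hV (g y') hy')

@[simp] theorem pull_eq (g : Y ⟶ X) [IsDominant g] (D : CaDiv X) (y : Y) :
    (pull g D).eq y = pullUnits g (D.eq (g y)) := rfl

theorem pull_zero (g : Y ⟶ X) [IsDominant g] : pull g (0 : CaDiv X) = 0 := by
  ext y; simp

theorem pull_add (g : Y ⟶ X) [IsDominant g] (D D' : CaDiv X) :
    pull g (D + D') = pull g D + pull g D' := by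
  ext y; simp

theorem pull_neg (g : Y ⟶ X) [IsDominant g] (D : CaDiv X) : pull g (-D) = - pull g D := by
  ext y; simp

theorem pull_sub (g : Y ⟶ X) [IsDominant g] (D D' : CaDiv X) :
    pull g (D - D') = pull g D - pull g D' := by
  ext y; simp

theorem pull_nsmul (g : Y ⟶ X) [IsDominant g] (m : ℕ) (D : CaDiv X) :
    pull g (m • D) = m • pull g D := by
  ext y; simp

theorem pull_principal (g : Y ⟶ X) [IsDominant g] (h : X.functionFieldˣ) :
    pull g (principal h) = principal (pullUnits g h) := by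
  ext y; simp

theorem IsEffective.pull {D : CaDiv X} (hD : D.IsEffective) (g : Y ⟶ X) [IsDominant g] :
    (pull g D).IsEffective := fun y => pullFun_mem_stalkRing g (hD (g y))

theorem Same.pull {D D' : CaDiv X} (h : Same D D') (g : Y ⟶ X) [IsDominant g] :
    Same (pull g D) (pull g D') := fun y => by
  rw [pull_eq, pull_eq, ← map_div]
  exact pullUnits_mem_stalkUnits g (h (g y))

theorem LinEquiv.pull {D D' : CaDiv X} (h : LinEquiv D D') (g : Y ⟶ X) [IsDominant g] :
    LinEquiv (pull g D) (pull g D') := by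
  obtain ⟨f, hf⟩ := h
  refine ⟨pullUnits g f, ?_⟩
  have := Same.pull hf g
  rwa [pull_add, pull_principal] at this

theorem pullFun_mem_L {D : CaDiv X} {f : X.functionField} (hf : f ∈ L D) (g : Y ⟶ X)
    [IsDominant g] : pullFun g f ∈ L (pull g D) := fun y => by
  rw [pull_eq, coe_pullUnits, ← map_mul]
  exact pullFun_mem_stalkRing g (hf (g y))

theorem preimage_suppCompl_le (g : Y ⟶ X) [IsDominant g] (D : CaDiv X) :
    g ⁻¹ᵁ D.suppCompl ≤ (pull g D).suppCompl := fun y hy => by
  rw [mem_suppCompl_iff]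
  exact pullUnits_mem_stalkUnits g (mem_suppCompl_iff.mp hy)

/-- For an effective divisor, the support of the pullback is the preimage of the support. -/
theorem supp_pull (g : Y ⟶ X) [IsDominant g] {D : CaDiv X} (hD : D.IsEffective) :
    (pull g D).supp = g ⁻¹' D.supp := by
  ext y
  simp only [Set.mem_preimage, mem_supp_iff, pull_eq, not_iff_not]
  exact ⟨fun h => mem_stalkUnits_of_pullUnits_mem g (hD (g y)) h,
    fun h => pullUnits_mem_stalkUnits g h⟩

theorem suppCompl_pull (g : Y ⟶ X) [IsDominant g] {D : CaDiv X} (hD : D.IsEffective) :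
    (pull g D).suppCompl = g ⁻¹ᵁ D.suppCompl := by
  ext y
  change y ∈ ((pull g D).supp)ᶜ ↔ g y ∈ (D.supp)ᶜ
  rw [supp_pull g hD]; rfl

theorem pull_id (D : CaDiv X) : pull (𝟙 X) D = D := by
  ext y
  simp [pullFun_id]

theorem pull_comp (g : Y ⟶ X) (g' : Z ⟶ Y) [IsDominant g] [IsDominant g'] (D : CaDiv X) :
    pull (g' ≫ g) D = pull g' (pull g D) := by
  ext z
  simp [pullFun_comp_apply]

theorem pull_congr {g g' : Y ⟶ X} [IsDominant g] [IsDominant g'] (h : g = g') (D : CaDiv X) :
    pull g D = pull g' D := by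
  subst h; rfl

theorem pull_hom_inv (e : Y ≅ X) (D : CaDiv X) : pull e.inv (pull e.hom D) = D := by
  rw [← pull_comp, pull_congr (g' := 𝟙 X) e.inv_hom_id, pull_id]

theorem pull_inv_hom (e : Y ≅ X) (D : CaDiv Y) : pull e.hom (pull e.inv D) = D := by
  rw [← pull_comp, pull_congr (g' := 𝟙 Y) e.hom_inv_id, pull_id]

/-- Along an isomorphism, `L(g^*D) = g^#(L(D))`. -/
theorem pullFun_mem_L_pull_iff_of_iso (e : Y ≅ X) (D : CaDiv X) {f : X.functionField} :
    pullFun e.hom f ∈ L (pull e.hom D) ↔ f ∈ L D := by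
  refine ⟨fun h => ?_, fun h => pullFun_mem_L h e.hom⟩
  have := pullFun_mem_L h e.inv
  rwa [pull_hom_inv, pullFun_hom_inv_apply] at this

end CaDiv

end

end Fermat.Agent.JAC.Div2.Pull69
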