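/-
S26-track, chapter DIV2/CUBE, brick CW0 (helper1), part 1: pullback of rational functions and
of Cartier divisors (field form of `Div2/CaDiv69`) along an ARBITRARY morphism `φ : Y ⟶ X`
of integral schemes.  Only functions regular at `x0 := φ (genericPoint Y)` can be pulled back,
and only divisors whose support misses `x0`; every divisor can be moved away from `x0`
by a principal divisor (`move`), which gives an honest additive map `pullMoved` on divisors.
-/
import Fermat.Agent.JAC.Div2.Pull69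

set_option autoImplicit false

universe u

open AlgebraicGeometry CategoryTheory TopologicalSpace Opposite
open Fermat.Agent.JAC.Div2.Stalk69 Fermat.Agent.JAC.Div2.CaDiv69

namespace Fermat.Agent.JAC.Div2.PullGen1

noncomputable section

variable {X Y Z : Scheme.{u}} [IsIntegral X] [IsIntegral Y] [IsIntegral Z]

/-! ### Specialisation facts -/

omit [IsIntegral X] in
theorem map_genericPoint_specializes (φ : Y ⟶ X) (y : Y) : φ (genericPoint Y) ⤳ φ y :=
  (genericPoint_specializes y).map φ.continuous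

omit [IsIntegral X] in
theorem map_genericPoint_mem (φ : Y ⟶ X) {U : X.Opens} {y : Y} (hy : φ y ∈ U) :
    φ (genericPoint Y) ∈ U :=
  (map_genericPoint_specializes φ y).mem_open U.isOpen hy

omit [IsIntegral X] in
theorem genericPoint_mem_preimage (φ : Y ⟶ X) {U : X.Opens} (hU : φ (genericPoint Y) ∈ U) :
    genericPoint Y ∈ φ ⁻¹ᵁ U := hU

theorem stalkRing_le_basePt (φ : Y ⟶ X) (y : Y) :
    stalkRing X (φ y) ≤ stalkRing X (φ (genericPoint Y)) :=
  stalkRing_le_of_specializes (map_genericPoint_specializes φ y)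

theorem stalkUnits_le_basePt (φ : Y ⟶ X) (y : Y) :
    stalkUnits X (φ y) ≤ stalkUnits X (φ (genericPoint Y)) :=
  stalkUnits_le_of_specializes (map_genericPoint_specializes φ y)

/-! ### Pulling back germs -/

/-- The map `O_{X,x} → K(Y)` for a point `x` to which the image of the generic point of `Y`
specialises. -/
def pullStalk (φ : Y ⟶ X) (x : X) (h : φ (genericPoint Y) ⤳ x) :
    X.presheaf.stalk x →+* Y.functionField :=
  (X.presheaf.stalkSpecializes h ≫ φ.stalkMap (genericPoint Y)).hom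

omit [IsIntegral X] in
theorem pullStalk_germ (φ : Y ⟶ X) (x : X) (h : φ (genericPoint Y) ⤳ x) (U : X.Opens)
    (hx : x ∈ U) (s : Γ(X, U)) :
    pullStalk φ x h (X.presheaf.germ U x hx s) =
      Y.presheaf.germ (φ ⁻¹ᵁ U) (genericPoint Y) (h.mem_open U.isOpen hx) (φ.app U s) := by
  have hU' : φ (genericPoint Y) ∈ U := h.mem_open U.isOpen hx
  have h1 : X.presheaf.stalkSpecializes h (X.presheaf.germ U x hx s) =
      X.presheaf.germ U (φ (genericPoint Y)) hU' s :=
    X.presheaf.germ_stalkSpecializes_apply _ _ s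
  change φ.stalkMap (genericPoint Y) (X.presheaf.stalkSpecializes _ _) = _
  rw [h1]
  exact φ.germ_stalkMap_apply U (genericPoint Y) hU' s

/-- The map `O_{X,x0} → K(Y)`, `x0 = φ (genericPoint Y)`, on the local ring viewed inside
`K(X)`. -/
def pullFunAt (φ : Y ⟶ X) : stalkRing X (φ (genericPoint Y)) →+* Y.functionField :=
  (pullStalk φ (φ (genericPoint Y)) specializes_rfl).comp
    (stalkEquiv X (φ (genericPoint Y))).symm.toRingHom

theorem pullFunAt_algebraMap (φ : Y ⟶ X) (s : X.presheaf.stalk (φ (genericPoint Y))) :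
    pullFunAt φ ⟨algebraMap _ X.functionField s, algebraMap_mem_stalkRing _ s⟩ =
      pullStalk φ (φ (genericPoint Y)) specializes_rfl s := by
  change pullStalk φ _ _ ((stalkEquiv X (φ (genericPoint Y))).symm _) = _
  congr 1
  rw [RingEquiv.symm_apply_eq]
  exact Subtype.ext rfl

/-- `pullFunAt` on germs. -/
theorem pullFunAt_germ (φ : Y ⟶ X) (U : X.Opens) (hU : φ (genericPoint Y) ∈ U) (s : Γ(X, U)) :
    pullFunAt φ ⟨X.presheaf.germ U (genericPoint X) (genericPoint_mem_of_mem hU) s,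
        germ_mem_stalkRing hU s⟩ =
      Y.presheaf.germ (φ ⁻¹ᵁ U) (genericPoint Y) hU (φ.app U s) := by
  have : Nonempty U := ⟨⟨_, hU⟩⟩
  have h1 : (⟨X.presheaf.germ U (genericPoint X) (genericPoint_mem_of_mem hU) s,
      germ_mem_stalkRing hU s⟩ : stalkRing X (φ (genericPoint Y))) =
      ⟨algebraMap _ X.functionField (X.presheaf.germ U _ hU s), algebraMap_mem_stalkRing _ _⟩ :=
    Subtype.ext (Scheme.algebraMap_germ_eq_germToFunctionField X hU s).symm
  rw [h1, pullFunAt_algebraMap, pullStalk_germ]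

/-- A function regular at `x0` is a germ of a section near `x0`. -/
theorem exists_germ_eq_of_mem {x : X} {a : X.functionField} (ha : a ∈ stalkRing X x) :
    ∃ (U : X.Opens) (hx : x ∈ U) (s : Γ(X, U)),
      X.presheaf.germ U (genericPoint X) (genericPoint_mem_of_mem hx) s = a :=
  mem_stalkRing_iff.mp ha

/-- A function regular at `φ y` pulls back to a function regular at `y`. -/
theorem pullFunAt_mem_stalkRing (φ : Y ⟶ X) {y : Y} (a : stalkRing X (φ (genericPoint Y)))
    (ha : (a : X.functionField) ∈ stalkRing X (φ y)) : pullFunAt φ a ∈ stalkRing Y y := by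
  obtain ⟨U, hy, s, hs⟩ := exists_germ_eq_of_mem ha
  have hU : φ (genericPoint Y) ∈ U := map_genericPoint_mem φ hy
  have h1 : a = ⟨X.presheaf.germ U (genericPoint X) (genericPoint_mem_of_mem hU) s,
      germ_mem_stalkRing hU s⟩ := Subtype.ext hs.symm
  rw [h1, pullFunAt_germ]
  exact germ_mem_stalkRing (show y ∈ φ ⁻¹ᵁ U from hy) _

/-- For a dominant morphism `pullFunAt` is the restriction of `Pull69.pullFun`. -/
theorem pullFunAt_eq_pullFun (φ : Y ⟶ X) [IsDominant φ] (a : stalkRing X (φ (genericPoint Y))) :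
    pullFunAt φ a = Pull69.pullFun φ a := by
  obtain ⟨U, hU, s, hs⟩ := exists_germ_eq_of_mem a.2
  have h1 : a = ⟨X.presheaf.germ U (genericPoint X) (genericPoint_mem_of_mem hU) s,
      germ_mem_stalkRing hU s⟩ := Subtype.ext hs.symm
  rw [h1, pullFunAt_germ]
  exact (Pull69.pullFun_germ φ U _ s).symm

/-- Functoriality of `pullFunAt`. -/
theorem pullFunAt_comp (ψ : Z ⟶ Y) (φ : Y ⟶ X) (a : stalkRing X ((ψ ≫ φ) (genericPoint Z)))
    (ha : (a : X.functionField) ∈ stalkRing X (φ (genericPoint Y)))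
    (ha' : pullFunAt φ ⟨a, ha⟩ ∈ stalkRing Y (ψ (genericPoint Z))) :
    pullFunAt (ψ ≫ φ) a = pullFunAt ψ ⟨pullFunAt φ ⟨a, ha⟩, ha'⟩ := by
  obtain ⟨U, hU, s, hs⟩ := exists_germ_eq_of_mem a.2
  have hU1 : φ (ψ (genericPoint Z)) ∈ U := hU
  have hU0 : φ (genericPoint Y) ∈ U := map_genericPoint_mem φ hU1
  have h1 : a = ⟨X.presheaf.germ U (genericPoint X) (genericPoint_mem_of_mem hU) s,
      germ_mem_stalkRing hU s⟩ := Subtype.ext hs.symm
  have h2 : (⟨(a : X.functionField), ha⟩ : stalkRing X (φ (genericPoint Y))) =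
      ⟨X.presheaf.germ U (genericPoint X) (genericPoint_mem_of_mem hU0) s,
        germ_mem_stalkRing hU0 s⟩ := Subtype.ext hs.symm
  have h3 : pullFunAt φ ⟨a, ha⟩ =
      Y.presheaf.germ (φ ⁻¹ᵁ U) (genericPoint Y) hU0 (φ.app U s) := by
    rw [h2, pullFunAt_germ]
  have h4 : (⟨pullFunAt φ ⟨a, ha⟩, ha'⟩ : stalkRing Y (ψ (genericPoint Z))) =
      ⟨Y.presheaf.germ (φ ⁻¹ᵁ U) (genericPoint Y)
          (genericPoint_mem_of_mem (show ψ (genericPoint Z) ∈ φ ⁻¹ᵁ U from hU1)) (φ.app U s),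
        germ_mem_stalkRing (show ψ (genericPoint Z) ∈ φ ⁻¹ᵁ U from hU1) _⟩ := Subtype.ext h3
  rw [h4, pullFunAt_germ ψ (φ ⁻¹ᵁ U) hU1, h1, pullFunAt_germ (ψ ≫ φ) U hU]
  rfl

/-! ### Units -/

/-- The units of `O_{X,x}` inside `K(X)ˣ`, as units of the ring `stalkRing X x`. -/
def unitsOfStalkUnits (x : X) : stalkUnits X x →* (stalkRing X x)ˣ where
  toFun u :=
    { val := ⟨((u : X.functionFieldˣ) : X.functionField), u.2.1⟩
      inv := ⟨(((u : X.functionFieldˣ)⁻¹ : X.functionFieldˣ) : X.functionField), u.2.2⟩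
      val_inv := Subtype.ext (by simp)
      inv_val := Subtype.ext (by simp) }
  map_one' := Units.ext (Subtype.ext rfl)
  map_mul' _ _ := Units.ext (Subtype.ext rfl)

@[simp] theorem coe_unitsOfStalkUnits (x : X) (u : stalkUnits X x) :
    ((unitsOfStalkUnits x u : (stalkRing X x)ˣ) : X.functionField) =
      ((u : X.functionFieldˣ) : X.functionField) := rfl

/-- Pullback of units of `O_{X,x0}`, `x0 = φ (genericPoint Y)`. -/
def pullUnitsAt (φ : Y ⟶ X) : stalkUnits X (φ (genericPoint Y)) →* Y.functionFieldˣ :=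
  (Units.map (pullFunAt φ).toMonoidHom).comp (unitsOfStalkUnits (φ (genericPoint Y)))

theorem coe_pullUnitsAt (φ : Y ⟶ X) (u : stalkUnits X (φ (genericPoint Y))) :
    ((pullUnitsAt φ u : Y.functionFieldˣ) : Y.functionField) =
      pullFunAt φ ⟨((u : X.functionFieldˣ) : X.functionField), u.2.1⟩ := rfl

/-- A unit at `φ y` pulls back to a unit at `y`. -/
theorem pullUnitsAt_mem_stalkUnits (φ : Y ⟶ X) {y : Y} (u : stalkUnits X (φ (genericPoint Y)))
    (hu : (u : X.functionFieldˣ) ∈ stalkUnits X (φ y)) : pullUnitsAt φ u ∈ stalkUnits Y y := by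
  refine ⟨?_, ?_⟩
  · rw [coe_pullUnitsAt]
    exact pullFunAt_mem_stalkRing φ _ hu.1
  · rw [← map_inv, coe_pullUnitsAt]
    exact pullFunAt_mem_stalkRing φ _ hu.2

theorem pullUnitsAt_eq_pullUnits (φ : Y ⟶ X) [IsDominant φ]
    (u : stalkUnits X (φ (genericPoint Y))) :
    pullUnitsAt φ u = Pull69.pullUnits φ (u : X.functionFieldˣ) := by
  apply Units.ext
  rw [coe_pullUnitsAt, pullFunAt_eq_pullFun]
  rfl

theorem stalkUnits_eq_top_of_isDominant (φ : Y ⟶ X) [IsDominant φ] :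
    stalkUnits X (φ (genericPoint Y)) = ⊤ := by
  rw [eq_top_iff]
  intro u _
  have h : stalkRing X (φ (genericPoint Y)) = ⊤ := by
    rw [Pull69.map_genericPoint]; exact stalkRing_genericPoint
  exact ⟨by rw [h]; trivial, by rw [h]; trivial⟩

/-- Functoriality of `pullUnitsAt`. -/
theorem pullUnitsAt_comp (ψ : Z ⟶ Y) (φ : Y ⟶ X) (u : stalkUnits X ((ψ ≫ φ) (genericPoint Z)))
    (hu : (u : X.functionFieldˣ) ∈ stalkUnits X (φ (genericPoint Y)))
    (hu' : pullUnitsAt φ ⟨u, hu⟩ ∈ stalkUnits Y (ψ (genericPoint Z))) :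
    pullUnitsAt (ψ ≫ φ) u = pullUnitsAt ψ ⟨pullUnitsAt φ ⟨u, hu⟩, hu'⟩ := by
  apply Units.ext
  rw [coe_pullUnitsAt, coe_pullUnitsAt]
  exact pullFunAt_comp ψ φ ⟨_, u.2.1⟩ hu.1 hu'.1

/-! ### Divisors missing the image of the generic point -/

namespace CaDiv

open Fermat.Agent.JAC.Div2.CaDiv69.CaDiv

/-- The support of `D` does not contain `x0 = φ (genericPoint Y)`. -/
def Misses (D : CaDiv X) (φ : Y ⟶ X) : Prop :=
  D.eq (φ (genericPoint Y)) ∈ stalkUnits X (φ (genericPoint Y))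

theorem misses_iff_notMem_supp (D : CaDiv X) (φ : Y ⟶ X) :
    Misses D φ ↔ φ (genericPoint Y) ∉ D.supp := by
  rw [mem_supp_iff, not_not]; rfl

/-- If `D` misses `x0`, all the local equations at generisations... at points to which `x0`
specialises are units at `x0`. -/
theorem Misses.eq_mem_of_specializes {D : CaDiv X} {φ : Y ⟶ X} (hD : Misses D φ) {x : X}
    (h : φ (genericPoint Y) ⤳ x) : D.eq x ∈ stalkUnits X (φ (genericPoint Y)) := by
  obtain ⟨V, hxV, hV⟩ := D.coh x
  have h1 := hV _ (h.mem_open V.isOpen hxV)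
  have h2 : D.eq x = D.eq (φ (genericPoint Y)) / (D.eq (φ (genericPoint Y)) / D.eq x) := by
    rw [div_div_cancel]
  rw [h2]
  exact div_mem hD h1

theorem Misses.eq_mem {D : CaDiv X} {φ : Y ⟶ X} (hD : Misses D φ) (y : Y) :
    D.eq (φ y) ∈ stalkUnits X (φ (genericPoint Y)) :=
  hD.eq_mem_of_specializes (map_genericPoint_specializes φ y)

theorem misses_of_forall {D : CaDiv X} {φ : Y ⟶ X}
    (h : ∀ y, D.eq (φ y) ∈ stalkUnits X (φ (genericPoint Y))) : Misses D φ := h _

theorem misses_zero (φ : Y ⟶ X) : Misses (0 : CaDiv X) φ := one_mem _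

theorem Misses.add {D D' : CaDiv X} {φ : Y ⟶ X} (h : Misses D φ) (h' : Misses D' φ) :
    Misses (D + D') φ := mul_mem h h'

theorem Misses.neg {D : CaDiv X} {φ : Y ⟶ X} (h : Misses D φ) : Misses (-D) φ := inv_mem h

theorem Misses.sub {D D' : CaDiv X} {φ : Y ⟶ X} (h : Misses D φ) (h' : Misses D' φ) :
    Misses (D - D') φ := div_mem h h'

theorem Misses.nsmul {D : CaDiv X} {φ : Y ⟶ X} (h : Misses D φ) (m : ℕ) :
    Misses (m • D) φ := pow_mem h m

theorem misses_principal_iff (h : X.functionFieldˣ) (φ : Y ⟶ X) :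
    Misses (principal h) φ ↔ h ∈ stalkUnits X (φ (genericPoint Y)) := Iff.rfl

theorem Same.misses {D D' : CaDiv X} (h : Same D D') {φ : Y ⟶ X} (hD : Misses D φ) :
    Misses D' φ := by
  have h1 := h (φ (genericPoint Y))
  have h2 : D'.eq (φ (genericPoint Y)) =
      D.eq (φ (genericPoint Y)) / (D.eq (φ (genericPoint Y)) / D'.eq (φ (genericPoint Y))) := by
    rw [div_div_cancel]
  change D'.eq _ ∈ _
  rw [h2]
  exact div_mem hD h1

theorem misses_of_isDominant (D : CaDiv X) (φ : Y ⟶ X) [IsDominant φ] : Misses D φ := by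
  change _ ∈ stalkUnits X _
  rw [stalkUnits_eq_top_of_isDominant]; trivial

/-- The pullback of a Cartier divisor missing `x0 = φ (genericPoint Y)` along an arbitrary
morphism `φ` of integral schemes. -/
def pullAt (φ : Y ⟶ X) (D : CaDiv X) (hD : Misses D φ) : CaDiv Y where
  eq y := pullUnitsAt φ ⟨D.eq (φ y), hD.eq_mem y⟩
  coh y := by
    obtain ⟨V, hyV, hV⟩ := D.coh (φ y)
    refine ⟨φ ⁻¹ᵁ V, hyV, fun y' hy' => ?_⟩
    rw [← map_div]
    exact pullUnitsAt_mem_stalkUnits φ _ (hV (φ y') hy')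

theorem pullAt_eq (φ : Y ⟶ X) (D : CaDiv X) (hD : Misses D φ) (y : Y) :
    (pullAt φ D hD).eq y = pullUnitsAt φ ⟨D.eq (φ y), hD.eq_mem y⟩ := rfl

theorem coe_pullAt_eq (φ : Y ⟶ X) (D : CaDiv X) (hD : Misses D φ) (y : Y) :
    (((pullAt φ D hD).eq y : Y.functionFieldˣ) : Y.functionField) =
      pullFunAt φ ⟨((D.eq (φ y) : X.functionFieldˣ) : X.functionField), (hD.eq_mem y).1⟩ := rfl

theorem pullAt_congr (φ : Y ⟶ X) {D D' : CaDiv X} (h : D = D') (hD : Misses D φ) :
    pullAt φ D hD = pullAt φ D' (h ▸ hD) := by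
  subst h; rfl

theorem pullAt_zero (φ : Y ⟶ X) : pullAt φ (0 : CaDiv X) (misses_zero φ) = 0 := by
  refine CaDiv69.CaDiv.ext fun y => ?_
  rw [pullAt_eq]
  exact map_one (pullUnitsAt φ)

theorem pullAt_add (φ : Y ⟶ X) {D D' : CaDiv X} (hD : Misses D φ) (hD' : Misses D' φ) :
    pullAt φ (D + D') (hD.add hD') = pullAt φ D hD + pullAt φ D' hD' := by
  refine CaDiv69.CaDiv.ext fun y => ?_
  rw [eq_add, pullAt_eq, pullAt_eq, pullAt_eq, ← map_mul]
  rfl

theorem pullAt_neg (φ : Y ⟶ X) {D : CaDiv X} (hD : Misses D φ) :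
    pullAt φ (-D) hD.neg = - pullAt φ D hD := by
  refine CaDiv69.CaDiv.ext fun y => ?_
  rw [eq_neg, pullAt_eq, pullAt_eq, ← map_inv]
  rfl

theorem pullAt_sub (φ : Y ⟶ X) {D D' : CaDiv X} (hD : Misses D φ) (hD' : Misses D' φ) :
    pullAt φ (D - D') (hD.sub hD') = pullAt φ D hD - pullAt φ D' hD' := by
  refine CaDiv69.CaDiv.ext fun y => ?_
  rw [eq_sub, pullAt_eq, pullAt_eq, pullAt_eq, ← map_div]
  rfl

theorem pullAt_nsmul (φ : Y ⟶ X) {D : CaDiv X} (hD : Misses D φ) (m : ℕ) :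
    pullAt φ (m • D) (hD.nsmul m) = m • pullAt φ D hD := by
  refine CaDiv69.CaDiv.ext fun y => ?_
  rw [eq_nsmul, pullAt_eq, pullAt_eq, ← map_pow]
  rfl

theorem pullAt_principal (φ : Y ⟶ X) (h : X.functionFieldˣ)
    (hh : h ∈ stalkUnits X (φ (genericPoint Y))) :
    pullAt φ (principal h) hh = principal (pullUnitsAt φ ⟨h, hh⟩) :=
  CaDiv69.CaDiv.ext fun _ => rfl

theorem Same.pullAt {D D' : CaDiv X} (h : Same D D') (φ : Y ⟶ X) (hD : Misses D φ)
    (hD' : Misses D' φ) : Same (pullAt φ D hD) (pullAt φ D' hD') := fun y => by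
  rw [pullAt_eq, pullAt_eq, ← map_div]
  exact pullUnitsAt_mem_stalkUnits φ _ (h (φ y))

theorem LinEquiv.pullAt {D D' : CaDiv X} (h : LinEquiv D D') (φ : Y ⟶ X) (hD : Misses D φ)
    (hD' : Misses D' φ) : LinEquiv (pullAt φ D hD) (pullAt φ D' hD') := by
  obtain ⟨g, hg⟩ := h
  have hm : Misses (D' + principal g) φ := Same.misses hg hD
  have hgm : g ∈ stalkUnits X (φ (genericPoint Y)) := by
    have h1 : Misses (principal g) φ := by
      have h2 : principal g = (D' + principal g) - D' := by abel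
      rw [h2]
      exact hm.sub hD'
    exact h1
  have hgm' : Misses (principal g) φ := hgm
  refine ⟨pullUnitsAt φ ⟨g, hgm⟩, ?_⟩
  have h3 := Same.pullAt hg φ hD (hD'.add hgm')
  rw [pullAt_add φ hD' hgm', pullAt_principal φ g hgm] at h3
  exact h3

theorem IsEffective.pullAt {D : CaDiv X} (hD : D.IsEffective) (φ : Y ⟶ X) (hm : Misses D φ) :
    (pullAt φ D hm).IsEffective := fun y => by
  rw [coe_pullAt_eq]
  exact pullFunAt_mem_stalkRing φ _ (hD (φ y))

theorem pullAt_eq_pull (φ : Y ⟶ X) [IsDominant φ] (D : CaDiv X) (hD : Misses D φ) :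
    pullAt φ D hD = Pull69.CaDiv.pull φ D := by
  refine CaDiv69.CaDiv.ext fun y => ?_
  rw [pullAt_eq, pullUnitsAt_eq_pullUnits]
  rfl

/-! ### Moving a divisor away from `x0` -/

/-- `D - div (D.eq x0)`: linearly equivalent to `D`, and missing `x0 = φ (genericPoint Y)`. -/
def move (φ : Y ⟶ X) (D : CaDiv X) : CaDiv X := D - principal (D.eq (φ (genericPoint Y)))

theorem move_eq (φ : Y ⟶ X) (D : CaDiv X) (x : X) :
    (move φ D).eq x = D.eq x / D.eq (φ (genericPoint Y)) := rfl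

theorem misses_move (φ : Y ⟶ X) (D : CaDiv X) : Misses (move φ D) φ := by
  change (move φ D).eq _ ∈ _
  rw [move_eq, div_self']
  exact one_mem _

theorem move_zero (φ : Y ⟶ X) : move φ (0 : CaDiv X) = 0 := by
  refine CaDiv69.CaDiv.ext fun x => ?_
  simp [move_eq]

theorem move_add (φ : Y ⟶ X) (D D' : CaDiv X) : move φ (D + D') = move φ D + move φ D' := by
  refine CaDiv69.CaDiv.ext fun x => ?_
  simp only [move_eq, eq_add]
  rw [mul_div_mul_comm]

theorem linEquiv_move (φ : Y ⟶ X) (D : CaDiv X) : LinEquiv (move φ D) D :=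
  ⟨(D.eq (φ (genericPoint Y)))⁻¹, fun x => by
    simp only [move_eq, eq_add, eq_principal, div_eq_mul_inv, mul_inv_cancel, one_mem]⟩

/-- The pullback of divisors along an arbitrary morphism, after moving away from the image of
the generic point: an honest additive map on divisors. -/
def pullMoved (φ : Y ⟶ X) : CaDiv X →+ CaDiv Y where
  toFun D := pullAt φ (move φ D) (misses_move φ D)
  map_zero' := by
    rw [pullAt_congr φ (move_zero φ)]
    exact pullAt_zero φ
  map_add' D D' := by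
    rw [pullAt_congr φ (move_add φ D D')]
    exact pullAt_add φ (misses_move φ D) (misses_move φ D')

theorem pullMoved_apply (φ : Y ⟶ X) (D : CaDiv X) :
    pullMoved φ D = pullAt φ (move φ D) (misses_move φ D) := rfl

theorem pullMoved_linEquiv_pullAt (φ : Y ⟶ X) (D : CaDiv X) (hD : Misses D φ) :
    LinEquiv (pullMoved φ D) (pullAt φ D hD) :=
  LinEquiv.pullAt (linEquiv_move φ D) φ (misses_move φ D) hD

theorem pullMoved_linEquiv_pull (φ : Y ⟶ X) [IsDominant φ] (D : CaDiv X) :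
    LinEquiv (pullMoved φ D) (Pull69.CaDiv.pull φ D) := by
  have := pullMoved_linEquiv_pullAt φ D (misses_of_isDominant D φ)
  rwa [pullAt_eq_pull] at this

/-- `pullMoved` preserves linear equivalence. -/
theorem LinEquiv.pullMoved {D D' : CaDiv X} (h : LinEquiv D D') (φ : Y ⟶ X) :
    LinEquiv (pullMoved φ D) (pullMoved φ D') :=
  LinEquiv.pullAt (((linEquiv_move φ D).trans h).trans (linEquiv_move φ D').symm) φ
    (misses_move φ D) (misses_move φ D')

theorem pullMoved_id_linEquiv (D : CaDiv X) : LinEquiv (pullMoved (𝟙 X) D) D := by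
  have := pullMoved_linEquiv_pull (𝟙 X) D
  rwa [Pull69.CaDiv.pull_id] at this

/-- **Functoriality** of `pullMoved`: an equality of divisors (not just of classes). -/
theorem pullMoved_comp (ψ : Z ⟶ Y) (φ : Y ⟶ X) (D : CaDiv X) :
    pullMoved (ψ ≫ φ) D = pullMoved ψ (pullMoved φ D) := by
  refine CaDiv69.CaDiv.ext fun z => ?_
  have hu1 : D.eq (φ (ψ z)) / D.eq (φ (ψ (genericPoint Z))) ∈
      stalkUnits X ((ψ ≫ φ) (genericPoint Z)) := (misses_move (ψ ≫ φ) D).eq_mem z
  have hu0 : D.eq (φ (ψ z)) / D.eq (φ (ψ (genericPoint Z))) ∈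
      stalkUnits X (φ (genericPoint Y)) :=
    stalkUnits_le_basePt φ (ψ (genericPoint Z)) hu1
  have hE : (pullMoved φ D).eq (ψ z) / (pullMoved φ D).eq (ψ (genericPoint Z)) =
      pullUnitsAt φ ⟨D.eq (φ (ψ z)) / D.eq (φ (ψ (genericPoint Z))), hu0⟩ := by
    rw [pullMoved_apply, pullAt_eq, pullAt_eq, ← map_div]
    congr 1
    apply Subtype.ext
    change (move φ D).eq (φ (ψ z)) / (move φ D).eq (φ (ψ (genericPoint Z))) = _
    rw [move_eq, move_eq, div_div_div_cancel_right]
  have hu' : pullUnitsAt φ ⟨D.eq (φ (ψ z)) / D.eq (φ (ψ (genericPoint Z))), hu0⟩ ∈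
      stalkUnits Y (ψ (genericPoint Z)) := by
    rw [← hE]
    exact (misses_move ψ (pullMoved φ D)).eq_mem z
  have h1 : (pullMoved (ψ ≫ φ) D).eq z =
      pullUnitsAt (ψ ≫ φ) ⟨D.eq (φ (ψ z)) / D.eq (φ (ψ (genericPoint Z))), hu1⟩ := rfl
  have h2 : (pullMoved ψ (pullMoved φ D)).eq z =
      pullUnitsAt ψ ⟨pullUnitsAt φ ⟨D.eq (φ (ψ z)) / D.eq (φ (ψ (genericPoint Z))), hu0⟩,
        hu'⟩ := by
    rw [pullMoved_apply ψ, pullAt_eq]
    congr 1
    apply Subtype.ext
    exact hE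
  rw [h1, h2]
  exact pullUnitsAt_comp ψ φ ⟨_, hu1⟩ hu0 hu'

end CaDiv

end

end Fermat.Agent.JAC.Div2.PullGen1
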