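/-
S26-track, chapter DIV2/CUBE, brick CW0 (helper1), part 2: the group `Cl X` of Cartier divisor
classes (field form of `Div2/CaDiv69`) of an integral scheme, as a CONTRAVARIANT FUNCTOR for
ALL morphisms of integral schemes (`Cl.map`, `Cl.map_id`, `Cl.map_comp`), its agreement with
`Pull69.CaDiv.pull` for dominant morphisms and with `PullGen1.CaDiv.pullAt` for divisors
missing the image of the generic point, and `Cl = 0` for one-point schemes (`Spec` of a field).
-/
import Fermat.Agent.JAC.Div2.PullGen1

set_option autoImplicit false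

universe u

open AlgebraicGeometry CategoryTheory TopologicalSpace Opposite
open Fermat.Agent.JAC.Div2.Stalk69 Fermat.Agent.JAC.Div2.CaDiv69
open Fermat.Agent.JAC.Div2.PullGen1

namespace Fermat.Agent.JAC.Div2.Cl1

noncomputable section

open Fermat.Agent.JAC.Div2.CaDiv69.CaDiv Fermat.Agent.JAC.Div2.PullGen1.CaDiv

variable {X Y Z : Scheme.{u}} [IsIntegral X] [IsIntegral Y] [IsIntegral Z]

/-! ### Complements on linear equivalence -/

theorem linEquiv_zero_iff {D : CaDiv X} :
    LinEquiv D 0 ↔ ∃ h : X.functionFieldˣ, Same D (principal h) := by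
  constructor
  · rintro ⟨h, hh⟩
    exact ⟨h, by rwa [zero_add] at hh⟩
  · rintro ⟨h, hh⟩
    exact ⟨h, by rwa [zero_add]⟩

theorem linEquiv_iff_sub {D D' : CaDiv X} : LinEquiv D D' ↔ LinEquiv (D - D') 0 := by
  constructor
  · rintro ⟨h, hh⟩
    refine ⟨h, fun x => ?_⟩
    have := hh x
    simp only [eq_add, eq_principal, eq_sub, eq_zero, one_mul] at this ⊢
    rwa [div_div]
  · rintro ⟨h, hh⟩
    refine ⟨h, fun x => ?_⟩
    have := hh x
    simp only [eq_add, eq_principal, eq_sub, eq_zero, one_mul] at this ⊢
    rwa [div_div] at this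

theorem LinEquiv.neg {D D' : CaDiv X} (h : LinEquiv D D') : LinEquiv (-D) (-D') := by
  obtain ⟨g, hg⟩ := h
  refine ⟨g⁻¹, fun x => ?_⟩
  have := inv_mem (hg x)
  simp only [eq_add, eq_principal, eq_neg] at this ⊢
  rwa [inv_div, ← inv_div_inv, mul_inv] at this

theorem LinEquiv.sub {D₁ D₁' D₂ D₂' : CaDiv X} (h₁ : LinEquiv D₁ D₁') (h₂ : LinEquiv D₂ D₂') :
    LinEquiv (D₁ - D₂) (D₁' - D₂') := by
  rw [sub_eq_add_neg, sub_eq_add_neg]
  exact h₁.add (LinEquiv.neg h₂)

/-! ### The class group -/

variable (X) in
/-- The subgroup of principal divisors (all presentations of them). -/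
def principalSubgroup : AddSubgroup (CaDiv X) where
  carrier := {D | LinEquiv D 0}
  zero_mem' := LinEquiv.refl 0
  add_mem' {D D'} h h' := by
    have := LinEquiv.add h h'
    rwa [add_zero] at this
  neg_mem' {D} h := by
    have := LinEquiv.neg h
    rwa [neg_zero] at this

theorem mem_principalSubgroup_iff {D : CaDiv X} : D ∈ principalSubgroup X ↔ LinEquiv D 0 :=
  Iff.rfl

variable (X) in
/-- The group of Cartier divisor classes of the integral scheme `X`. -/
abbrev Cl : Type u := CaDiv X ⧸ principalSubgroup X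

namespace Cl

/-- The class of a divisor. -/
def mk : CaDiv X →+ Cl X := QuotientAddGroup.mk' (principalSubgroup X)

theorem mk_surjective : Function.Surjective (mk : CaDiv X → Cl X) :=
  QuotientAddGroup.mk'_surjective _

@[elab_as_elim]
theorem induction_on {P : Cl X → Prop} (c : Cl X) (h : ∀ D : CaDiv X, P (mk D)) : P c := by
  obtain ⟨D, rfl⟩ := mk_surjective c
  exact h D

theorem mk_eq_zero_iff {D : CaDiv X} : mk D = 0 ↔ LinEquiv D 0 := by
  rw [← mem_principalSubgroup_iff]
  exact QuotientAddGroup.eq_zero_iff D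

theorem mk_eq_mk_iff {D D' : CaDiv X} : mk D = mk D' ↔ LinEquiv D D' := by
  rw [← sub_eq_zero, ← map_sub, mk_eq_zero_iff, ← linEquiv_iff_sub]

theorem mk_principal (h : X.functionFieldˣ) : mk (principal h : CaDiv X) = 0 :=
  mk_eq_zero_iff.mpr (linEquiv_principal h)

theorem mk_eq_of_same {D D' : CaDiv X} (h : Same D D') : mk D = mk D' :=
  mk_eq_mk_iff.mpr h.linEquiv

/-- Pullback of divisor classes along an arbitrary morphism of integral schemes. -/
def map (φ : Y ⟶ X) : Cl X →+ Cl Y :=
  QuotientAddGroup.map (principalSubgroup X) (principalSubgroup Y) (pullMoved φ) (by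
    intro D hD
    change LinEquiv (pullMoved φ D) 0
    have := LinEquiv.pullMoved (mem_principalSubgroup_iff.mp hD) φ
    rwa [map_zero] at this)

theorem map_mk (φ : Y ⟶ X) (D : CaDiv X) : map φ (mk D) = mk (pullMoved φ D) := rfl

/-- For a divisor missing the image of the generic point, `Cl.map` is computed by `pullAt`. -/
theorem map_mk_of_misses (φ : Y ⟶ X) (D : CaDiv X) (hD : Misses D φ) :
    map φ (mk D) = mk (pullAt φ D hD) := by
  rw [map_mk, mk_eq_mk_iff]
  exact pullMoved_linEquiv_pullAt φ D hD

/-- For a dominant morphism, `Cl.map` is computed by `Pull69.CaDiv.pull`. -/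
theorem map_mk_of_isDominant (φ : Y ⟶ X) [IsDominant φ] (D : CaDiv X) :
    map φ (mk D) = mk (Pull69.CaDiv.pull φ D) := by
  rw [map_mk, mk_eq_mk_iff]
  exact pullMoved_linEquiv_pull φ D

theorem map_id : map (𝟙 X) = AddMonoidHom.id (Cl X) := by
  refine AddMonoidHom.ext fun c => ?_
  induction c using induction_on with
  | h D =>
    rw [map_mk, AddMonoidHom.id_apply, mk_eq_mk_iff]
    exact pullMoved_id_linEquiv D

theorem map_comp (ψ : Z ⟶ Y) (φ : Y ⟶ X) : map (ψ ≫ φ) = (map ψ).comp (map φ) := by
  refine AddMonoidHom.ext fun c => ?_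
  induction c using induction_on with
  | h D =>
    rw [AddMonoidHom.comp_apply, map_mk, map_mk, map_mk, pullMoved_comp]

theorem map_comp_apply (ψ : Z ⟶ Y) (φ : Y ⟶ X) (c : Cl X) :
    map (ψ ≫ φ) c = map ψ (map φ c) := by
  rw [map_comp]; rfl

theorem map_congr {φ φ' : Y ⟶ X} (h : φ = φ') : map φ = map φ' := by
  subst h; rfl

/-- Isomorphic schemes have isomorphic class groups. -/
def mapIso (e : Y ≅ X) : Cl X ≃+ Cl Y where
  toFun := map e.hom
  invFun := map e.inv
  left_inv c := by
    rw [← map_comp_apply, map_congr e.inv_hom_id, map_id]; rfl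
  right_inv c := by
    rw [← map_comp_apply, map_congr e.hom_inv_id, map_id]; rfl
  map_add' := map_add _

/-! ### One-point schemes -/

/-- Every divisor on a one-point integral scheme is principal. -/
theorem linEquiv_zero_of_subsingleton [Subsingleton Y] (D : CaDiv Y) : LinEquiv D 0 := by
  refine ⟨D.eq (genericPoint Y), fun y => ?_⟩
  rw [Subsingleton.elim y (genericPoint Y)]
  simp only [eq_add, eq_zero, eq_principal, one_mul, div_self']
  exact one_mem _

instance subsingleton_of_subsingleton [Subsingleton Y] : Subsingleton (Cl Y) :=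
  ⟨fun a b => by
    induction a using induction_on with
    | h D =>
      induction b using induction_on with
      | h D' =>
        rw [mk_eq_mk_iff]
        exact (linEquiv_zero_of_subsingleton D).trans (linEquiv_zero_of_subsingleton D').symm⟩

/-- A morphism factoring through a one-point integral scheme kills all divisor classes. -/
theorem map_eq_zero_of_factors {S : Scheme.{u}} [IsIntegral S] [Subsingleton S]
    (a : Y ⟶ S) (b : S ⟶ X) : map (a ≫ b) = 0 := by
  refine AddMonoidHom.ext fun c => ?_
  rw [map_comp_apply, Subsingleton.elim (map b c) 0, map_zero]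
  rfl

theorem map_eq_zero_of_eq_comp {S : Scheme.{u}} [IsIntegral S] [Subsingleton S]
    {φ : Y ⟶ X} (a : Y ⟶ S) (b : S ⟶ X) (h : φ = a ≫ b) : map φ = 0 := by
  rw [map_congr h]; exact map_eq_zero_of_factors a b

end Cl

/-! ### `Spec` of a field -/

instance subsingleton_spec_field (K : Type u) [Field K] :
    Subsingleton (Spec (CommRingCat.of K)) :=
  inferInstanceAs (Subsingleton (PrimeSpectrum K))

theorem Cl.subsingleton_of_field (K : Type u) [Field K] :
    Subsingleton (Cl (Spec (CommRingCat.of K))) := inferInstance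

/-- A morphism factoring through `Spec` of a field kills all divisor classes. -/
theorem Cl.map_eq_zero_of_factors_field (K : Type u) [Field K]
    (a : Y ⟶ Spec (CommRingCat.of K)) (b : Spec (CommRingCat.of K) ⟶ X) :
    Cl.map (a ≫ b) = 0 :=
  Cl.map_eq_zero_of_factors a b

end

end Fermat.Agent.JAC.Div2.Cl1
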