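/-
S26-track, chapter DIV2 (helper69), brick D2.3: for an effective Cartier divisor `D` on a
quasi-compact integral scheme, the functions regular away from `D` are exactly `⋃ₘ L(mD)`.
-/
import Fermat.Agent.JAC.Div2.CaDiv69

set_option autoImplicit false

universe u v

open AlgebraicGeometry CategoryTheory TopologicalSpace Opposite
open Fermat.Agent.JAC.Div2.Stalk69 Fermat.Agent.JAC.Div2.CaDiv69

namespace Fermat.Agent.JAC.Div2.Gam69

variable {X : Scheme.{u}} [IsIntegral X]

/-- The germ at the generic point of a section over an open set containing `x`. -/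
theorem germ_genericPoint_eq {U : X.Opens} [Nonempty U] (hη : genericPoint X ∈ U) (s : Γ(X, U)) :
    X.presheaf.germ U (genericPoint X) hη s = X.germToFunctionField U s := rfl

theorem germToFunctionField_res {U V : X.Opens} [Nonempty U] [Nonempty V] (h : U ≤ V)
    (s : Γ(X, V)) :
    X.germToFunctionField U (X.presheaf.map (homOfLE h).op s) = X.germToFunctionField V s :=
  X.presheaf.germ_res_apply (homOfLE h) (genericPoint X) _ s

/-- A point of `U` lies in the basic open of `a : Γ(X, U)` iff the germ of `a` is a unit of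
the local ring inside the function field. -/
theorem mem_basicOpen_iff_mem_stalkUnits {U : X.Opens} [Nonempty U] (a : Γ(X, U))
    (ha : X.germToFunctionField U a ≠ 0) {y : X} (hy : y ∈ U) :
    y ∈ X.basicOpen a ↔ Units.mk0 _ ha ∈ stalkUnits X y := by
  rw [Scheme.mem_basicOpen X a y hy]
  have hgerm : algebraMap (X.presheaf.stalk y) X.functionField (X.presheaf.germ U y hy a) =
      X.germToFunctionField U a := Scheme.algebraMap_germ_eq_germToFunctionField X hy a
  constructor
  · intro hu
    refine ⟨?_, ?_⟩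
    · rw [Units.val_mk0, ← hgerm]; exact algebraMap_mem_stalkRing y _
    · obtain ⟨v, hv⟩ := hu
      have h1 : X.germToFunctionField U a *
          algebraMap (X.presheaf.stalk y) X.functionField (v⁻¹ : (X.presheaf.stalk y)ˣ) = 1 := by
        rw [← hgerm, ← hv, ← map_mul, Units.mul_inv, map_one]
      have h2 : ((Units.mk0 _ ha)⁻¹ : X.functionFieldˣ) =
          algebraMap (X.presheaf.stalk y) X.functionField (v⁻¹ : (X.presheaf.stalk y)ˣ) := by
        rw [Units.val_inv_eq_inv_val, Units.val_mk0]
        exact inv_eq_of_mul_eq_one_right h1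
      rw [h2]
      exact algebraMap_mem_stalkRing y _
  · rintro ⟨-, h2⟩
    obtain ⟨t, ht⟩ := h2
    rw [Units.val_inv_eq_inv_val, Units.val_mk0] at ht
    refine IsUnit.of_mul_eq_one t ?_
    apply IsFractionRing.injective (X.presheaf.stalk y) X.functionField
    rw [map_mul, hgerm, ht, map_one, mul_inv_cancel₀ ha]

/-- On an affine open `W`, a rational function regular on `D(a)` becomes regular on `W`
after multiplication by a power of `a`. -/
theorem exists_pow_mul_mem_sectionRing {W : X.Opens} (hW : IsAffineOpen W) [Nonempty W]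
    (a : Γ(X, W)) (ha : X.germToFunctionField W a ≠ 0) {f : X.functionField}
    (hf : f ∈ sectionRing X (X.basicOpen a)) :
    ∃ n : ℕ, f * (X.germToFunctionField W a) ^ n ∈ sectionRing X W := by
  have hηW : genericPoint X ∈ W := genericPoint_mem_of_mem (Classical.arbitrary W).2
  have hη : genericPoint X ∈ X.basicOpen a := by
    rw [Scheme.mem_basicOpen X a _ hηW]
    exact isUnit_iff_ne_zero.mpr ha
  have : Nonempty (X.basicOpen a) := ⟨⟨_, hη⟩⟩
  obtain ⟨t, rfl⟩ := exists_section_of_mem_sectionRing hf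
  have := hW.isLocalization_basicOpen a
  obtain ⟨n, b, hb⟩ := IsLocalization.Away.surj a t
  refine ⟨n, ?_⟩
  have h1 : X.germToFunctionField (X.basicOpen a) (algebraMap Γ(X, W) Γ(X, X.basicOpen a) a) =
      X.germToFunctionField W a := germToFunctionField_res (X.basicOpen_le a) a
  have h2 : X.germToFunctionField (X.basicOpen a) (algebraMap Γ(X, W) Γ(X, X.basicOpen a) b) =
      X.germToFunctionField W b := germToFunctionField_res (X.basicOpen_le a) b
  have := congrArg (X.germToFunctionField (X.basicOpen a)) hb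
  rw [map_mul, map_pow, h1, h2] at this
  rw [this]
  exact germ_mem_sectionRing b

/-- **Local form.** Near every point, `f * (local equation)^m` is regular for all large `m`,
if `f` is regular away from the effective divisor `D`. -/
theorem exists_opens_forall_mul_pow_mem (D : CaDiv X) (hD : D.IsEffective)
    {f : X.functionField} (hf : f ∈ sectionRing X D.suppCompl) (x : X) :
    ∃ (V : X.Opens) (n : ℕ), x ∈ V ∧
      ∀ m, n ≤ m → ∀ y ∈ V, f * (D.eq y : X.functionField) ^ m ∈ stalkRing X y := by
  set h := D.eq x with hh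
  obtain ⟨V₁, hxV₁, hV₁⟩ := D.coh x
  obtain ⟨V₂, hxV₂, s₂, hs₂⟩ := mem_stalkRing_iff.mp (hD x)
  obtain ⟨_, ⟨W, hW, rfl⟩, hxW, hWV⟩ :=
    X.isBasis_affineOpens.exists_subset_of_mem_open (show x ∈ (V₁ ⊓ V₂ : X.Opens) from
      ⟨hxV₁, hxV₂⟩) (V₁ ⊓ V₂).isOpen
  have hWV₁ : W ≤ V₁ := fun y hy => (hWV hy).1
  have hWV₂ : W ≤ V₂ := fun y hy => (hWV hy).2
  have : Nonempty W := ⟨⟨x, hxW⟩⟩
  have : Nonempty V₂ := ⟨⟨x, hxV₂⟩⟩
  set a : Γ(X, W) := X.presheaf.map (homOfLE hWV₂).op s₂ with ha_def
  have hga : X.germToFunctionField W a = (h : X.functionField) := by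
    rw [ha_def, germToFunctionField_res hWV₂ s₂, ← hs₂]
  have ha : X.germToFunctionField W a ≠ 0 := by rw [hga]; exact h.ne_zero
  have hmk : Units.mk0 _ ha = h := Units.ext hga
  -- the basic open of `a` avoids the support
  have hle : X.basicOpen a ≤ D.suppCompl := by
    intro y hy
    have hyW : y ∈ W := X.basicOpen_le a hy
    have hu := (mem_basicOpen_iff_mem_stalkUnits a ha hyW).mp hy
    rw [hmk] at hu
    rw [CaDiv.mem_suppCompl_iff]
    have : D.eq y = D.eq y / h * h := by simp
    rw [this]
    exact mul_mem (hV₁ y (hWV₁ hyW)) hu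
  obtain ⟨n, hn⟩ := exists_pow_mul_mem_sectionRing hW a ha (sectionRing_antitone hle hf)
  rw [hga] at hn
  refine ⟨W, n, hxW, fun m hm y hy => ?_⟩
  have hhy : (h : X.functionField) ∈ stalkRing X y := by
    rw [← hs₂]; exact germ_mem_stalkRing (hWV₂ hy) s₂
  have hu := (hV₁ y (hWV₁ hy)).1
  obtain ⟨k, rfl⟩ := Nat.exists_eq_add_of_le hm
  have : f * (D.eq y : X.functionField) ^ (n + k) =
      (f * (h : X.functionField) ^ n) * (h : X.functionField) ^ k *
        ((D.eq y / h : X.functionFieldˣ) : X.functionField) ^ (n + k) := by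
    have hne : (h : X.functionField) ≠ 0 := h.ne_zero
    rw [Units.val_div_eq_div_val, div_pow, pow_add, pow_add]
    field_simp
  rw [this]
  exact mul_mem (mul_mem (mem_sectionRing_iff.mp hn y hy) (pow_mem hhy k)) (pow_mem hu _)

/-- **`Γ(X ∖ Supp D) = ⋃ₘ L(mD)`** for an effective Cartier divisor on a quasi-compact
integral scheme. -/
theorem mem_sectionRing_suppCompl_iff [CompactSpace X] (D : CaDiv X) (hD : D.IsEffective)
    {f : X.functionField} :
    f ∈ sectionRing X D.suppCompl ↔ ∃ m : ℕ, f ∈ CaDiv.L (m • D) := by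
  constructor
  · intro hf
    choose V n hxV hV using exists_opens_forall_mul_pow_mem D hD hf
    obtain ⟨t, ht⟩ := isCompact_univ.elim_finite_subcover (fun x => (V x : Set X))
      (fun x => (V x).isOpen) (fun x _ => Set.mem_iUnion.mpr ⟨x, hxV x⟩)
    refine ⟨t.sup n, fun y => ?_⟩
    obtain ⟨x, hx⟩ := Set.mem_iUnion.mp (ht (Set.mem_univ y))
    obtain ⟨hxt, hyV⟩ := Set.mem_iUnion.mp hx
    rw [CaDiv.eq_nsmul, Units.val_pow_eq_pow_val]
    exact hV x (t.sup n) (Finset.le_sup hxt) y hyV
  · rintro ⟨m, hf⟩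
    rw [mem_sectionRing_iff]
    intro y hy
    have hu := (CaDiv.mem_suppCompl_iff.mp hy).2
    have h1 := hf y
    rw [CaDiv.eq_nsmul, Units.val_pow_eq_pow_val] at h1
    have : f = f * (D.eq y : X.functionField) ^ m *
        (((D.eq y)⁻¹ : X.functionFieldˣ) : X.functionField) ^ m := by
      have hne : (D.eq y : X.functionField) ≠ 0 := (D.eq y).ne_zero
      rw [Units.val_inv_eq_inv_val, inv_pow]
      field_simp
    rw [this]
    exact mul_mem h1 (pow_mem hu m)

/-- The same statement for the `K`-structures. -/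
theorem mem_sectionAlg_suppCompl_iff [CompactSpace X] (K : Type v) [CommSemiring K]
    [Algebra K X.functionField] [RegularScalars K X] (D : CaDiv X) (hD : D.IsEffective)
    {f : X.functionField} :
    f ∈ sectionAlg X K D.suppCompl ↔ ∃ m : ℕ, f ∈ CaDiv.LK K (m • D) := by
  simp only [mem_sectionAlg_iff, CaDiv.mem_LK_iff]
  exact mem_sectionRing_suppCompl_iff D hD

/-- `Γ(X ∖ Supp D)` is the (directed) union of the `L(mD)`, as `K`-submodules of `F`. -/
theorem sectionAlg_suppCompl_eq_iSup [CompactSpace X] (K : Type v) [CommSemiring K]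
    [Algebra K X.functionField] [RegularScalars K X] (D : CaDiv X) (hD : D.IsEffective) :
    Subalgebra.toSubmodule (sectionAlg X K D.suppCompl) = ⨆ m : ℕ, CaDiv.LK K (m • D) := by
  ext f
  rw [Subalgebra.mem_toSubmodule, mem_sectionAlg_suppCompl_iff K D hD,
    Submodule.mem_iSup_of_directed]
  exact (monotone_nat_of_le_succ fun m =>
    CaDiv.LK_nsmul_mono K hD (Nat.le_succ m)).directed_le

end Fermat.Agent.JAC.Div2.Gam69
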