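/-
S26-track, chapter DIV2 (helper69), brick D2.7: centres of valuation rings.
For `X` integral over `Spec K` satisfying the existence part of the valuative criterion
(e.g. `X` proper over `K`), every valuation subring of the function field containing `K`
dominates the local ring of some point of `X`.
-/
import Fermat.Agent.JAC.Div2.Gam69
import Fermat.Agent.JAC.B2.Valuative37

set_option autoImplicit false

universe u

open AlgebraicGeometry CategoryTheory TopologicalSpace Opposite IsLocalRing
open Fermat.Agent.JAC.Div2.Stalk69 Fermat.Agent.JAC.Div2.CaDiv69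
open Fermat.Agent.JAC.B2.Valuative37 Fermat.Agent.JAC.Div2.Gam69

namespace Fermat.Agent.JAC.Div2.Proper69

variable {X : Scheme.{u}} [IsIntegral X] {K : Type u} [CommRing K]

/-- The generic point of `X`, as a morphism `Spec K(X) ⟶ X`, composed with the structure
morphism, is `Spec` of the ring map `K → K(X)`. -/
theorem fromSpecStalk_genericPoint_comp (f : X ⟶ Spec (CommRingCat.of K)) :
    X.fromSpecStalk (genericPoint X) ≫ f =
      Spec.map (CommRingCat.ofHom (toFunctionFieldOfHom f)) := by
  have h1 : f = X.toSpecΓ ≫ Spec.map f.appTop ≫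
      Spec.map (Scheme.ΓSpecIso (CommRingCat.of K)).inv := by
    rw [← Scheme.toSpecΓ_naturality_assoc, toSpecΓ_SpecMap_ΓSpecIso_inv, Category.comp_id]
  conv_lhs => rw [h1]
  rw [Scheme.fromSpecStalk_toSpecΓ_assoc, ← Spec.map_comp, ← Spec.map_comp]
  rfl

omit [IsIntegral X] in
/-- Pulling a section back along `Spec O_{X,x} ⟶ X` is taking the germ at `x`. -/
theorem pullHom_fromSpecStalk (x : X) (U : X.Opens) (hx : x ∈ U)
    (h : (X.fromSpecStalk x) ⁻¹ᵁ U = ⊤) (s : Γ(X, U)) :
    pullHom (X.fromSpecStalk x) U h s = X.presheaf.germ U x hx s := by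
  rw [pullHom_apply, Scheme.Hom.appLE, Scheme.fromSpecStalk_app hx]
  have key : (Spec (X.presheaf.stalk x)).presheaf.map
        (homOfLE (le_top : (X.fromSpecStalk x) ⁻¹ᵁ U ≤ ⊤)).op ≫
      (Spec (X.presheaf.stalk x)).presheaf.map (homOfLE h.ge).op = 𝟙 _ := by
    rw [← Functor.map_comp]
    exact (Spec (X.presheaf.stalk x)).presheaf.map_id _
  simp only [Category.assoc]
  rw [key, Category.comp_id]
  exact Iso.inv_hom_id_apply (Scheme.ΓSpecIso (X.presheaf.stalk x)) _

/-- **Centres exist.**  If `X ⟶ Spec K` satisfies the existence part of the valuative criterion,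
every valuation subring `V` of the function field containing (the image of) `K` has a centre:
a point `y` whose local ring is dominated by `V`. -/
theorem exists_center_of_existence (f : X ⟶ Spec (CommRingCat.of K))
    (hf : ValuativeCriterion.Existence f) (V : ValuationSubring X.functionField)
    (hV : ∀ k : K, toFunctionFieldOfHom f k ∈ V) :
    ∃ y : X, stalkRing X y ≤ V.toSubring ∧
      ∀ a ∈ stalkRing X y, a ≠ 0 → a⁻¹ ∈ V → a⁻¹ ∈ stalkRing X y := by
  let φ : K →+* V := (toFunctionFieldOfHom f).codRestrict V.toSubring hV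
  let Sq : ValuativeCommSq f :=
    { R := V
      K := X.functionField
      i₁ := X.fromSpecStalk (genericPoint X)
      i₂ := Spec.map (CommRingCat.ofHom φ)
      commSq := ⟨by rw [fromSpecStalk_genericPoint_comp, ← Spec.map_comp]; rfl⟩ }
  obtain ⟨⟨l, hl1, -⟩⟩ := hf Sq
  change Spec.map (CommRingCat.ofHom (algebraMap V X.functionField)) ≫ l =
    X.fromSpecStalk (genericPoint X) at hl1
  -- the key computation: a germ regular at the centre is the image of an element of `V`
  have key : ∀ (U : X.Opens) (hy : l (closedPoint V) ∈ U) (s : Γ(X, U)),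
      ∃ hU : l ⁻¹ᵁ U = ⊤, X.presheaf.germ U (genericPoint X) (genericPoint_mem_of_mem hy) s =
        algebraMap V X.functionField (pullHom l U hU s) := by
    intro U hy s
    have hU : l ⁻¹ᵁ U = ⊤ := Scheme.preimage_eq_top_of_closedPoint_mem l hy
    refine ⟨hU, ?_⟩
    have hξ : (Spec.map (CommRingCat.ofHom (algebraMap V X.functionField)) ≫ l) ⁻¹ᵁ U = ⊤ := by
      rw [Scheme.Hom.comp_preimage, hU]; rfl
    have h1 := pullHom_comp (CommRingCat.ofHom (algebraMap V X.functionField)) l U hU hξ s
    rw [pullHom_congr hl1, pullHom_fromSpecStalk (genericPoint X) U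
      (genericPoint_mem_of_mem hy)] at h1
    exact h1
  refine ⟨l (closedPoint V), ?_, ?_⟩
  · intro a ha
    obtain ⟨U, hy, s, rfl⟩ := mem_stalkRing_iff.mp ha
    obtain ⟨hU, h⟩ := key U hy s
    rw [h]
    exact (pullHom l U hU s).2
  · intro a ha ha0 hainv
    obtain ⟨U, hy, s, rfl⟩ := mem_stalkRing_iff.mp ha
    obtain ⟨hU, h⟩ := key U hy s
    have : Nonempty U := ⟨⟨_, hy⟩⟩
    -- `pullHom l U hU s` is a unit of `V`
    have hu : IsUnit (pullHom l U hU s) := by
      have hne : pullHom l U hU s ≠ 0 := by
        intro h0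
        apply ha0
        rw [h, h0, map_zero]
      have hmem : ((pullHom l U hU s : V) : X.functionField)⁻¹ ∈ V := by
        have : ((pullHom l U hU s : V) : X.functionField) =
          X.presheaf.germ U (genericPoint X) (genericPoint_mem_of_mem hy) s := h.symm
        rw [this]; exact hainv
      have hne' : ((pullHom l U hU s : V) : X.functionField) ≠ 0 := fun h0 => hne (Subtype.ext h0)
      refine IsUnit.of_mul_eq_one ⟨_, hmem⟩ (Subtype.ext ?_)
      change ((pullHom l U hU s : V) : X.functionField) *
        ((pullHom l U hU s : V) : X.functionField)⁻¹ = 1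
      exact mul_inv_cancel₀ hne'
    have hmem := mem_basicOpen_of_isUnit_pullHom l U hU s hu (closedPoint V)
    have := (mem_basicOpen_iff_mem_stalkUnits s ha0 hy).mp hmem
    exact inv_mem_of_mem_stalkUnits this

omit [IsIntegral X] in
theorem existence_of_universallyClosed {S : Scheme.{u}} (f : X ⟶ S) [UniversallyClosed f] :
    ValuativeCriterion.Existence f := by
  have h : (ValuativeCriterion.Existence ⊓ @QuasiCompact) f := by
    rw [← UniversallyClosed.eq_valuativeCriterion]; infer_instance
  exact h.1

omit [IsIntegral X] in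
theorem uniqueness_of_isSeparated {S : Scheme.{u}} (f : X ⟶ S) [IsSeparated f] :
    ValuativeCriterion.Uniqueness f :=
  IsSeparated.valuativeCriterion f

/-- Centres exist on a scheme universally closed (e.g. proper) over `K`. -/
theorem exists_center (f : X ⟶ Spec (CommRingCat.of K)) [UniversallyClosed f]
    (V : ValuationSubring X.functionField) (hV : ∀ k : K, toFunctionFieldOfHom f k ∈ V) :
    ∃ y : X, stalkRing X y ≤ V.toSubring ∧
      ∀ a ∈ stalkRing X y, a ≠ 0 → a⁻¹ ∈ V → a⁻¹ ∈ stalkRing X y :=
  exists_center_of_existence f (existence_of_universallyClosed f) V hV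

/-- The properness hypothesis `hprop` of the VOL chapter (`Vol/Up63`), with
`O y := stalkAlg X K y` for the `K`-structure `algebraOfHom f`. -/
theorem hprop_of_universallyClosed (f : X ⟶ Spec (CommRingCat.of K)) [UniversallyClosed f] :
    letI := algebraOfHom f
    haveI := regularScalars_of_hom f
    ∀ V : ValuationSubring X.functionField,
      (∀ c : K, algebraMap K X.functionField c ∈ V) →
        ∃ y : X, ∀ a ∈ stalkAlg X K y, a ∈ V := by
  intro V hV
  obtain ⟨y, hy, -⟩ := exists_center f V hV
  exact ⟨y, fun a ha => hy ha⟩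

/-! ### The morphism `Spec V ⟶ X` attached to a point whose local ring lies in `V` -/

section CenterMap

variable (V : ValuationSubring X.functionField)

/-- The ring map `O_{X,x} → V` when `O_{X,x} ⊆ V`. -/
noncomputable def stalkToVal (x : X) (hx : stalkRing X x ≤ V.toSubring) :
    X.presheaf.stalk x →+* V :=
  (algebraMap (X.presheaf.stalk x) X.functionField).codRestrict V.toSubring
    fun s => hx (algebraMap_mem_stalkRing x s)

@[simp] theorem coe_stalkToVal (x : X) (hx : stalkRing X x ≤ V.toSubring)
    (s : X.presheaf.stalk x) :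
    (stalkToVal V x hx s : X.functionField) = algebraMap (X.presheaf.stalk x) X.functionField s :=
  rfl

/-- The morphism `Spec V ⟶ X` through `Spec O_{X,x}`. -/
noncomputable def centerMap (x : X) (hx : stalkRing X x ≤ V.toSubring) :
    Spec (CommRingCat.of V) ⟶ X :=
  Spec.map (CommRingCat.ofHom (stalkToVal V x hx)) ≫ X.fromSpecStalk x

theorem specMap_comp_centerMap (x : X) (hx : stalkRing X x ≤ V.toSubring) :
    Spec.map (CommRingCat.ofHom (algebraMap V X.functionField)) ≫ centerMap V x hx =
      X.fromSpecStalk (genericPoint X) := by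
  rw [centerMap, ← Spec.map_comp_assoc,
    ← Scheme.SpecMap_stalkSpecializes_fromSpecStalk ((genericPoint_spec X).specializes trivial)]
  rfl

theorem centerMap_closedPoint_specializes (x : X) (hx : stalkRing X x ≤ V.toSubring) :
    centerMap V x hx (closedPoint V) ⤳ x := by
  have : centerMap V x hx (closedPoint V) ∈ Set.range (X.fromSpecStalk x) :=
    ⟨Spec.map (CommRingCat.ofHom (stalkToVal V x hx)) (closedPoint V), rfl⟩
  rwa [Scheme.range_fromSpecStalk] at this

/-- If `V` dominates `O_{X,y}`, the closed point of `Spec V` maps to `y`. -/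
theorem centerMap_closedPoint_eq (y : X) (hy : stalkRing X y ≤ V.toSubring)
    (hdom : ∀ a ∈ stalkRing X y, a ≠ 0 → a⁻¹ ∈ V → a⁻¹ ∈ stalkRing X y) :
    centerMap V y hy (closedPoint V) = y := by
  have hloc : IsLocalHom (stalkToVal V y hy) := by
    refine ⟨fun s hs => ?_⟩
    obtain ⟨v, hv⟩ := hs
    have hsv : algebraMap (X.presheaf.stalk y) X.functionField s = (v : V) := by
      rw [← coe_stalkToVal V y hy s, ← hv]
    have hv0 : ((v : V) : X.functionField) ≠ 0 := by
      intro h0
      exact v.ne_zero (Subtype.ext h0)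
    have hinv : ((v : V) : X.functionField)⁻¹ ∈ V := by
      have h1 : ((v : V) : X.functionField) * (((v⁻¹ : Vˣ) : V) : X.functionField) = 1 := by
        have h2 : ((v : V) * ((v⁻¹ : Vˣ) : V) : V) = 1 := Units.mul_inv v
        have h3 := congrArg (fun z : V => (z : X.functionField)) h2
        exact h3
      have : ((v : V) : X.functionField)⁻¹ = ((v⁻¹ : Vˣ) : V) := inv_eq_of_mul_eq_one_right h1
      rw [this]; exact ((v⁻¹ : Vˣ) : V).2
    obtain ⟨t, ht⟩ := hdom _ (algebraMap_mem_stalkRing y s) (hsv ▸ hv0) (hsv ▸ hinv)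
    refine IsUnit.of_mul_eq_one t ?_
    apply IsFractionRing.injective (X.presheaf.stalk y) X.functionField
    rw [map_mul, ht, map_one, mul_inv_cancel₀ (hsv ▸ hv0)]
  change X.fromSpecStalk y (Spec.map (CommRingCat.ofHom (stalkToVal V y hy)) (closedPoint V)) = y
  have : Spec.map (CommRingCat.ofHom (stalkToVal V y hy)) (closedPoint V) =
      closedPoint (X.presheaf.stalk y) := comap_closedPoint (stalkToVal V y hy)
  rw [this, Scheme.fromSpecStalk_closedPoint]

omit [IsIntegral X] in
/-- `Spec O_{X,x} ⟶ X ⟶ Spec K` is `Spec` of the ring map `K → O_{X,x}`. -/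
theorem fromSpecStalk_comp (f : X ⟶ Spec (CommRingCat.of K)) (x : X) :
    X.fromSpecStalk x ≫ f =
      Spec.map ((Scheme.ΓSpecIso (CommRingCat.of K)).inv ≫ f.appTop ≫
        X.presheaf.germ ⊤ x trivial) := by
  have h1 : f = X.toSpecΓ ≫ Spec.map f.appTop ≫
      Spec.map (Scheme.ΓSpecIso (CommRingCat.of K)).inv := by
    rw [← Scheme.toSpecΓ_naturality_assoc, toSpecΓ_SpecMap_ΓSpecIso_inv, Category.comp_id]
  conv_lhs => rw [h1]
  rw [Scheme.fromSpecStalk_toSpecΓ_assoc, ← Spec.map_comp, ← Spec.map_comp, Category.assoc]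

/-- The valuative square attached to a valuation subring of the function field containing `K`. -/
noncomputable def valSq (f : X ⟶ Spec (CommRingCat.of K))
    (hV : ∀ k : K, toFunctionFieldOfHom f k ∈ V) : ValuativeCommSq f where
  R := V
  K := X.functionField
  i₁ := X.fromSpecStalk (genericPoint X)
  i₂ := Spec.map (CommRingCat.ofHom ((toFunctionFieldOfHom f).codRestrict V.toSubring hV))
  commSq := ⟨by rw [fromSpecStalk_genericPoint_comp, ← Spec.map_comp]; rfl⟩

theorem centerMap_comp (f : X ⟶ Spec (CommRingCat.of K))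
    (hV : ∀ k : K, toFunctionFieldOfHom f k ∈ V) (x : X) (hx : stalkRing X x ≤ V.toSubring) :
    centerMap V x hx ≫ f =
      Spec.map (CommRingCat.ofHom ((toFunctionFieldOfHom f).codRestrict V.toSubring hV)) := by
  rw [centerMap, Category.assoc, fromSpecStalk_comp, ← Spec.map_comp]
  congr 1
  ext k
  have : Nonempty (⊤ : X.Opens) := ⟨⟨x, trivial⟩⟩
  exact Scheme.algebraMap_germ_eq_germToFunctionField X (U := ⊤) (x := x) trivial _

/-- The lift of the valuative square given by a point whose local ring lies in `V`. -/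
noncomputable def centerLift (f : X ⟶ Spec (CommRingCat.of K))
    (hV : ∀ k : K, toFunctionFieldOfHom f k ∈ V) (x : X) (hx : stalkRing X x ≤ V.toSubring) :
    (valSq V f hV).commSq.LiftStruct where
  l := centerMap V x hx
  fac_left := specMap_comp_centerMap V x hx
  fac_right := centerMap_comp V f hV x hx

/-- **Separatedness.** If `O_{X,x} ⊆ V` and `V` dominates `O_{X,y}`, then `y` specializes to `x`
(uniqueness part of the valuative criterion, e.g. `X` separated over `K`). -/
theorem specializes_of_stalkRing_le (f : X ⟶ Spec (CommRingCat.of K))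
    (hf : ValuativeCriterion.Uniqueness f) {x y : X} (hx : stalkRing X x ≤ V.toSubring)
    (hy : stalkRing X y ≤ V.toSubring)
    (hdom : ∀ a ∈ stalkRing X y, a ≠ 0 → a⁻¹ ∈ V → a⁻¹ ∈ stalkRing X y) : y ⤳ x := by
  have hV : ∀ k : K, toFunctionFieldOfHom f k ∈ V := fun k =>
    hx ((regularScalars_of_hom f).algebraMap_mem k x)
  have hsub := hf (valSq V f hV)
  have hl : centerMap V x hx = centerMap V y hy :=
    congrArg CommSq.LiftStruct.l (Subsingleton.elim (centerLift V f hV x hx) (centerLift V f hV y hy))
  rw [← centerMap_closedPoint_eq V y hy hdom, ← hl]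
  exact centerMap_closedPoint_specializes V x hx

/-- Uniqueness of the centre. -/
theorem center_unique (f : X ⟶ Spec (CommRingCat.of K))
    (hf : ValuativeCriterion.Uniqueness f) {x y : X} (hx : stalkRing X x ≤ V.toSubring)
    (hxdom : ∀ a ∈ stalkRing X x, a ≠ 0 → a⁻¹ ∈ V → a⁻¹ ∈ stalkRing X x)
    (hy : stalkRing X y ≤ V.toSubring)
    (hydom : ∀ a ∈ stalkRing X y, a ≠ 0 → a⁻¹ ∈ V → a⁻¹ ∈ stalkRing X y) : x = y :=
  ((specializes_of_stalkRing_le V f hf hy hx hxdom).antisymm
    (specializes_of_stalkRing_le V f hf hx hy hydom)).eq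

end CenterMap

end Fermat.Agent.JAC.Div2.Proper69
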