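/-
S26-track, chapter DIV2 (helper69), brick D2.4: the divisor of zeros of a rational function
on a locally noetherian integral scheme with factorial local rings.
-/
import Fermat.Agent.JAC.Div2.Gam69

set_option autoImplicit false

universe u v

open AlgebraicGeometry CategoryTheory TopologicalSpace Opposite
open Fermat.Agent.JAC.Div2.Stalk69 Fermat.Agent.JAC.Div2.CaDiv69 Fermat.Agent.JAC.Div2.Gam69

namespace Fermat.Agent.JAC.Div2.DivZero69

/-! ### Reduced fractions in "field form" -/

section FieldForm

variable {F : Type*} [Field F]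

/-- `((a) : b) = (a)` in the subring `O` of the field `F`: whenever `a ∣ b * c` in `O`,
already `a ∣ c` (divisibility `a ∣ z` written as `z / a ∈ O`). -/
def ColonFree (O : Subring F) (a b : F) : Prop :=
  ∀ c ∈ O, b * c / a ∈ O → c / a ∈ O

/-- `a` is a numerator of `h` with respect to `O`: `a, a / h ∈ O` are "coprime". -/
structure IsNumer (O : Subring F) (h a : F) : Prop where
  ne_zero : a ≠ 0
  mem : a ∈ O
  den_mem : a / h ∈ O
  colon : ColonFree O a (a / h)
  colon' : ColonFree O (a / h) a

/-- Numerators are unique up to units. -/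
theorem IsNumer.div_mem {O : Subring F} {h a a' : F} (hh : h ≠ 0) (ha : IsNumer O h a)
    (ha' : IsNumer O h a') : a' / a ∈ O := by
  have h1 := ha.colon a' ha'.mem
  have h2 : a / h * a' / a = a' / h := by
    have := ha.ne_zero
    field_simp
  rw [h2] at h1
  exact h1 ha'.den_mem

/-- A regular function is its own numerator. -/
theorem isNumer_self {O : Subring F} {h : F} (hh : h ≠ 0) (hO : h ∈ O) : IsNumer O h h where
  ne_zero := hh
  mem := hO
  den_mem := by rw [div_self hh]; exact one_mem O
  colon := fun c _ hc => by rwa [div_self hh, one_mul] at hc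
  colon' := fun c hc _ => by rwa [div_self hh, div_one]

/-- The denominator of `h` is a numerator of `h⁻¹`. -/
theorem IsNumer.inv {O : Subring F} {h a : F} (hh : h ≠ 0) (ha : IsNumer O h a) :
    IsNumer O h⁻¹ (a / h) := by
  have ha0 := ha.ne_zero
  have e : a / h / h⁻¹ = a := by field_simp
  refine ⟨div_ne_zero ha0 hh, ha.den_mem, ?_, ?_, ?_⟩
  · rw [e]; exact ha.mem
  · rw [e]; exact ha.colon'
  · rw [e]; exact ha.colon

variable {A : Type*} [CommRing A] [IsDomain A] [Algebra A F] [IsFractionRing A F]

/-- In a factorial domain every nonzero element of the fraction field has a numerator. -/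
theorem exists_isNumer [UniqueFactorizationMonoid A] {h : F} (hh : h ≠ 0) :
    ∃ a : F, IsNumer (algebraMap A F).range h a := by
  obtain ⟨a, ⟨b, hb⟩, hrel, hab⟩ := IsFractionRing.exists_reduced_fraction A h
  have hb0 : algebraMap A F b ≠ 0 := IsFractionRing.to_map_ne_zero_of_mem_nonZeroDivisors hb
  rw [IsFractionRing.mk'_eq_div] at hab
  change algebraMap A F a / algebraMap A F b = h at hab
  have ha0 : algebraMap A F a ≠ 0 := by
    intro h0; apply hh; rw [← hab, h0, zero_div]
  have hden : algebraMap A F a / h = algebraMap A F b := by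
    rw [← hab]; field_simp
  have hinj := IsFractionRing.injective A F
  refine ⟨algebraMap A F a, ha0, ⟨a, rfl⟩, hden ▸ ⟨b, rfl⟩, ?_, ?_⟩
  · rintro _ ⟨c, rfl⟩ ⟨e, he⟩
    rw [hden] at he
    have h1 : b * c = a * e := by
      apply hinj
      rw [map_mul, map_mul, he]; field_simp
    have h2 : a ∣ c := hrel.dvd_of_dvd_mul_left ⟨e, h1⟩
    obtain ⟨d, rfl⟩ := h2
    refine ⟨d, ?_⟩
    rw [map_mul]; field_simp
  · rintro _ ⟨c, rfl⟩ ⟨e, he⟩
    rw [hden] at he ⊢
    have h1 : a * c = b * e := by
      apply hinj
      rw [map_mul, map_mul, he]; field_simp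
    have h2 : b ∣ c := hrel.symm.dvd_of_dvd_mul_left ⟨e, h1⟩
    obtain ⟨d, rfl⟩ := h2
    refine ⟨d, ?_⟩
    rw [map_mul]; field_simp

end FieldForm

/-! ### Affine description of the local rings -/

section Affine

variable {X : Scheme.{u}} [IsIntegral X]

/-- If `y` lies in the basic open of `s`, the germ of `s` is invertible in `O_{X,y}`. -/
theorem germ_ne_zero_and_inv_mem_of_mem_basicOpen {U : X.Opens} [Nonempty U] (s : Γ(X, U))
    {y : X} (hy : y ∈ X.basicOpen s) :
    X.germToFunctionField U s ≠ 0 ∧ (X.germToFunctionField U s)⁻¹ ∈ stalkRing X y := by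
  have hyU : y ∈ U := X.basicOpen_le s hy
  have hu : IsUnit (X.presheaf.germ U y hyU s) := (Scheme.mem_basicOpen X s y hyU).mp hy
  have hgerm : algebraMap (X.presheaf.stalk y) X.functionField (X.presheaf.germ U y hyU s) =
      X.germToFunctionField U s := Scheme.algebraMap_germ_eq_germToFunctionField X hyU s
  have h0 : X.germToFunctionField U s ≠ 0 := by
    rw [← hgerm]
    intro h
    have := IsFractionRing.injective (X.presheaf.stalk y) X.functionField
      (h.trans (map_zero _).symm)
    exact hu.ne_zero this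
  refine ⟨h0, ?_⟩
  have := (mem_basicOpen_iff_mem_stalkUnits s h0 hyU).mp hy
  simpa using inv_mem_of_mem_stalkUnits this

/-- Elements of the local ring at a point of an affine open `W` are fractions of sections
over `W` with denominator invertible at the point. -/
theorem exists_sections_of_mem_stalkRing {W : X.Opens} (hW : IsAffineOpen W) [Nonempty W]
    {y : X} (hy : y ∈ W) {c : X.functionField} (hc : c ∈ stalkRing X y) :
    ∃ c' s : Γ(X, W), y ∈ X.basicOpen s ∧
      c * X.germToFunctionField W s = X.germToFunctionField W c' := by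
  obtain ⟨t, rfl⟩ := hc
  let _ := TopCat.Presheaf.algebra_section_stalk X.presheaf (⟨y, hy⟩ : W)
  have := hW.isLocalization_stalk ⟨y, hy⟩
  obtain ⟨⟨c', s⟩, hcs⟩ := IsLocalization.surj (hW.primeIdealOf ⟨y, hy⟩).asIdeal.primeCompl t
  refine ⟨c', s, ?_, ?_⟩
  · rw [Scheme.mem_basicOpen X _ y hy]
    exact IsLocalization.map_units (X.presheaf.stalk y) s
  · have h1 := congrArg (algebraMap (X.presheaf.stalk y) X.functionField) hcs
    rw [map_mul] at h1
    have h2 : ∀ r : Γ(X, W), algebraMap (X.presheaf.stalk y) X.functionField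
        (algebraMap Γ(X, W) (X.presheaf.stalk y) r) = X.germToFunctionField W r :=
      fun r => Scheme.algebraMap_germ_eq_germToFunctionField X hy r
    rw [h2, h2] at h1
    exact h1

/-- Finitely many rational functions regular at `x` are regular on a common neighbourhood. -/
theorem exists_opens_forall_finset_mem_stalkRing {ι : Type*} (S : Finset ι)
    (g : ι → X.functionField) {x : X} (hx : ∀ i ∈ S, g i ∈ stalkRing X x) :
    ∃ V : X.Opens, x ∈ V ∧ ∀ i ∈ S, ∀ y ∈ V, g i ∈ stalkRing X y := by
  classical
  induction S using Finset.induction_on with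
  | empty => exact ⟨⊤, trivial, fun i hi => absurd hi (Finset.notMem_empty i)⟩
  | insert i S hi ih =>
    obtain ⟨V, hxV, hV⟩ := ih fun j hj => hx j (Finset.mem_insert_of_mem hj)
    obtain ⟨V', hxV', hV'⟩ := exists_opens_forall_mem_stalkRing (hx i (Finset.mem_insert_self i S))
    refine ⟨V ⊓ V', ⟨hxV, hxV'⟩, fun j hj y hy => ?_⟩
    rcases Finset.mem_insert.mp hj with rfl | hj
    · exact hV' y hy.2
    · exact hV j hj y hy.1

/-- **Spreading out coprimality.**  On a locally noetherian integral scheme, the colon condition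
`((a) : b) = (a)` in `O_{X,x}` persists in a neighbourhood of `x`. -/
theorem colonFree_spread [IsLocallyNoetherian X] {x : X} {a b : X.functionField}
    (ha : a ∈ stalkRing X x) (hb : b ∈ stalkRing X x)
    (hcol : ColonFree (stalkRing X x) a b) :
    ∃ V : X.Opens, x ∈ V ∧ ∀ y ∈ V, ColonFree (stalkRing X y) a b := by
  classical
  obtain ⟨V₁, hxV₁, sa, hsa⟩ := mem_stalkRing_iff.mp ha
  obtain ⟨V₂, hxV₂, sb, hsb⟩ := mem_stalkRing_iff.mp hb
  obtain ⟨_, ⟨W, hW, rfl⟩, hxW, hWV⟩ :=
    X.isBasis_affineOpens.exists_subset_of_mem_open (show x ∈ (V₁ ⊓ V₂ : X.Opens) from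
      ⟨hxV₁, hxV₂⟩) (V₁ ⊓ V₂).isOpen
  have hWV₁ : W ≤ V₁ := fun y hy => (hWV hy).1
  have hWV₂ : W ≤ V₂ := fun y hy => (hWV hy).2
  have : Nonempty W := ⟨⟨x, hxW⟩⟩
  have : Nonempty V₁ := ⟨⟨x, hxV₁⟩⟩
  have : Nonempty V₂ := ⟨⟨x, hxV₂⟩⟩
  have : IsNoetherianRing Γ(X, W) := IsLocallyNoetherian.component_noetherian ⟨W, hW⟩
  set a' : Γ(X, W) := X.presheaf.map (homOfLE hWV₁).op sa with ha'_def
  set b' : Γ(X, W) := X.presheaf.map (homOfLE hWV₂).op sb with hb'_def
  have hga : X.germToFunctionField W a' = a := by
    rw [ha'_def, germToFunctionField_res hWV₁ sa, ← hsa]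
  have hgb : X.germToFunctionField W b' = b := by
    rw [hb'_def, germToFunctionField_res hWV₂ sb, ← hsb]
  -- the colon ideal
  let I : Ideal Γ(X, W) :=
    { carrier := {c | b * X.germToFunctionField W c / a ∈ sectionRing X W}
      add_mem' := fun {c d} hc hd => by
        change b * X.germToFunctionField W (c + d) / a ∈ sectionRing X W
        rw [map_add, mul_add, add_div]
        exact add_mem hc hd
      zero_mem' := by
        change b * X.germToFunctionField W 0 / a ∈ sectionRing X W
        rw [map_zero, mul_zero, zero_div]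
        exact zero_mem _
      smul_mem' := fun r c hc => by
        change b * X.germToFunctionField W (r * c) / a ∈ sectionRing X W
        rw [map_mul, show b * (X.germToFunctionField W r * X.germToFunctionField W c) / a =
          X.germToFunctionField W r * (b * X.germToFunctionField W c / a) by ring]
        exact mul_mem (germ_mem_sectionRing r) hc }
  obtain ⟨S, hS⟩ := (isNoetherianRing_iff_ideal_fg Γ(X, W)).mp inferInstance I
  -- the generators become divisible by `a` near `x`
  have hgen : ∀ c ∈ S, X.germToFunctionField W c / a ∈ stalkRing X x := by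
    intro c hc
    have hcI : c ∈ I := hS ▸ Ideal.subset_span hc
    exact hcol _ (germ_mem_stalkRing hxW c) (sectionRing_le_stalkRing hxW hcI)
  obtain ⟨V, hxV, hV⟩ := exists_opens_forall_finset_mem_stalkRing S
    (fun c => X.germToFunctionField W c / a) hgen
  refine ⟨W ⊓ V, ⟨hxW, hxV⟩, fun y hy c hc hbc => ?_⟩
  have hyW : y ∈ W := hy.1
  -- every element of `I` is divisible by `a` in `O_y`
  have hI : ∀ z ∈ I, X.germToFunctionField W z / a ∈ stalkRing X y := by
    intro z hz
    rw [← hS] at hz
    induction hz using Submodule.span_induction with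
    | mem z hz => exact hV z hz y hy.2
    | zero => rw [map_zero, zero_div]; exact zero_mem _
    | add z w _ _ hz hw => rw [map_add, add_div]; exact add_mem hz hw
    | smul r z _ hz =>
      rw [smul_eq_mul, map_mul, mul_div_assoc]
      exact mul_mem (germ_mem_stalkRing hyW r) hz
  obtain ⟨c', s, hs, hcs⟩ := exists_sections_of_mem_stalkRing hW hyW hc
  obtain ⟨e, u, hu, heu⟩ := exists_sections_of_mem_stalkRing hW hyW hbc
  obtain ⟨hs0, hsinv⟩ := germ_ne_zero_and_inv_mem_of_mem_basicOpen s hs
  obtain ⟨hu0, huinv⟩ := germ_ne_zero_and_inv_mem_of_mem_basicOpen u hu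
  have hmem : u * c' ∈ I := by
    change b * X.germToFunctionField W (u * c') / a ∈ sectionRing X W
    have : b * X.germToFunctionField W (u * c') / a = X.germToFunctionField W (e * s) := by
      rw [map_mul, map_mul, ← hcs, ← heu]; ring
    rw [this]
    exact germ_mem_sectionRing _
  have h1 := hI _ hmem
  have h2 : c / a = X.germToFunctionField W (u * c') / a *
      ((X.germToFunctionField W u)⁻¹ * (X.germToFunctionField W s)⁻¹) := by
    rw [map_mul, ← hcs]
    field_simp
  rw [h2]
  exact mul_mem h1 (mul_mem huinv hsinv)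

/-- Being a numerator of `h` spreads to a neighbourhood. -/
theorem isNumer_spread [IsLocallyNoetherian X] {x : X} {h a : X.functionField}
    (ha : IsNumer (stalkRing X x) h a) :
    ∃ V : X.Opens, x ∈ V ∧ ∀ y ∈ V, IsNumer (stalkRing X y) h a := by
  obtain ⟨V₁, hx₁, hV₁⟩ := exists_opens_forall_mem_stalkRing ha.mem
  obtain ⟨V₂, hx₂, hV₂⟩ := exists_opens_forall_mem_stalkRing ha.den_mem
  obtain ⟨V₃, hx₃, hV₃⟩ := colonFree_spread ha.mem ha.den_mem ha.colon
  obtain ⟨V₄, hx₄, hV₄⟩ := colonFree_spread ha.den_mem ha.mem ha.colon'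
  exact ⟨V₁ ⊓ V₂ ⊓ V₃ ⊓ V₄, ⟨⟨⟨hx₁, hx₂⟩, hx₃⟩, hx₄⟩, fun y hy =>
    ⟨ha.ne_zero, hV₁ y hy.1.1.1, hV₂ y hy.1.1.2, hV₃ y hy.1.2, hV₄ y hy.2⟩⟩

end Affine

/-! ### The divisor of zeros -/

section DivZero

variable {X : Scheme.{u}} [IsIntegral X]

theorem exists_isNumer_stalk (hUFD : ∀ x : X, UniqueFactorizationMonoid (X.presheaf.stalk x))
    (h : X.functionFieldˣ) (x : X) :
    ∃ a : X.functionField, IsNumer (stalkRing X x) (h : X.functionField) a :=
  haveI := hUFD x
  exists_isNumer (A := X.presheaf.stalk x) h.ne_zero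

/-- A numerator of `h` at `x`. -/
noncomputable def numer (hUFD : ∀ x : X, UniqueFactorizationMonoid (X.presheaf.stalk x))
    (h : X.functionFieldˣ) (x : X) : X.functionFieldˣ :=
  Units.mk0 (exists_isNumer_stalk hUFD h x).choose (exists_isNumer_stalk hUFD h x).choose_spec.ne_zero

theorem isNumer_numer (hUFD : ∀ x : X, UniqueFactorizationMonoid (X.presheaf.stalk x))
    (h : X.functionFieldˣ) (x : X) :
    IsNumer (stalkRing X x) (h : X.functionField) (numer hUFD h x : X.functionField) :=
  (exists_isNumer_stalk hUFD h x).choose_spec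

/-- Two numerators of `h` at `x` differ by a unit of `O_{X,x}`. -/
theorem div_mem_stalkUnits_of_isNumer {x : X} {h a a' : X.functionFieldˣ}
    (ha : IsNumer (stalkRing X x) (h : X.functionField) (a : X.functionField))
    (ha' : IsNumer (stalkRing X x) (h : X.functionField) (a' : X.functionField)) :
    a' / a ∈ stalkUnits X x := by
  refine ⟨?_, ?_⟩
  · rw [Units.val_div_eq_div_val]; exact ha.div_mem h.ne_zero ha'
  · rw [inv_div, Units.val_div_eq_div_val]; exact ha'.div_mem h.ne_zero ha

variable [IsLocallyNoetherian X]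

/-- **The divisor of zeros** `div₀ h` of a nonzero rational function on a locally noetherian
integral scheme with factorial local rings: the local equation at `x` is a numerator of a reduced
fraction representing `h` in `O_{X,x}`. -/
noncomputable def divZero (hUFD : ∀ x : X, UniqueFactorizationMonoid (X.presheaf.stalk x))
    (h : X.functionFieldˣ) : CaDiv X where
  eq x := numer hUFD h x
  coh x := by
    obtain ⟨V, hxV, hV⟩ := isNumer_spread (isNumer_numer hUFD h x)
    exact ⟨V, hxV, fun y hy => div_mem_stalkUnits_of_isNumer (hV y hy) (isNumer_numer hUFD h y)⟩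

variable (hUFD : ∀ x : X, UniqueFactorizationMonoid (X.presheaf.stalk x)) (h : X.functionFieldˣ)

theorem isNumer_divZero_eq (x : X) :
    IsNumer (stalkRing X x) (h : X.functionField) ((divZero hUFD h).eq x : X.functionField) :=
  isNumer_numer hUFD h x

theorem divZero_isEffective : (divZero hUFD h).IsEffective :=
  fun x => (isNumer_divZero_eq hUFD h x).mem

/-- Where `h` is regular, `h` itself is a local equation of `div₀ h`. -/
theorem divZero_eq_div_mem_stalkUnits {x : X} (hx : (h : X.functionField) ∈ stalkRing X x) :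
    (divZero hUFD h).eq x / h ∈ stalkUnits X x :=
  div_mem_stalkUnits_of_isNumer (isNumer_self h.ne_zero hx) (isNumer_divZero_eq hUFD h x)

/-- Where `h` is regular and not a unit (i.e. vanishes), the point lies on `div₀ h`. -/
theorem mem_supp_divZero {x : X} (hx : (h : X.functionField) ∈ stalkRing X x)
    (hnu : h ∉ stalkUnits X x) : x ∈ (divZero hUFD h).supp := by
  intro hu
  apply hnu
  have h1 := inv_mem (divZero_eq_div_mem_stalkUnits hUFD h hx)
  have h2 : h = ((divZero hUFD h).eq x / h)⁻¹ * (divZero hUFD h).eq x := by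
    rw [inv_div, div_mul_cancel]
  rw [h2]
  exact mul_mem h1 hu

/-- The complement of `div₀ h` is the locus where `h⁻¹` is regular. -/
theorem mem_suppCompl_divZero_iff {x : X} :
    x ∈ (divZero hUFD h).suppCompl ↔ ((h : X.functionField))⁻¹ ∈ stalkRing X x := by
  rw [CaDiv.mem_suppCompl_iff]
  constructor
  · intro hu
    have hn := isNumer_divZero_eq hUFD h x
    have : ((h : X.functionField))⁻¹ =
        ((divZero hUFD h).eq x : X.functionField) / h *
          (((divZero hUFD h).eq x)⁻¹ : X.functionFieldˣ) := by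
      have := ((divZero hUFD h).eq x).ne_zero
      have := h.ne_zero
      rw [Units.val_inv_eq_inv_val]
      field_simp
    rw [this]
    exact mul_mem hn.den_mem hu.2
  · intro hinv
    have h1 : IsNumer (stalkRing X x) ((h⁻¹ : X.functionFieldˣ) : X.functionField)
        ((h⁻¹ : X.functionFieldˣ) : X.functionField) := by
      refine isNumer_self (h⁻¹).ne_zero ?_
      rw [Units.val_inv_eq_inv_val]; exact hinv
    have h2 := h1.inv (h⁻¹).ne_zero
    rw [div_self (h⁻¹).ne_zero, Units.val_inv_eq_inv_val, inv_inv] at h2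
    have h3 : IsNumer (stalkRing X x) (h : X.functionField)
        ((1 : X.functionFieldˣ) : X.functionField) := by simpa using h2
    have := div_mem_stalkUnits_of_isNumer h3 (isNumer_divZero_eq hUFD h x)
    simpa using this

/-- `div₀ h - div₀ h⁻¹ = div h`. -/
theorem divZero_sub_divZero_inv_same :
    CaDiv.Same (divZero hUFD h - divZero hUFD h⁻¹) (CaDiv.principal h) := by
  intro x
  have h1 := (isNumer_divZero_eq hUFD h x).inv h.ne_zero
  have h2 := isNumer_divZero_eq hUFD h⁻¹ x
  have e : ((divZero hUFD h).eq x : X.functionField) / h =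
      (((divZero hUFD h).eq x / h : X.functionFieldˣ) : X.functionField) := by
    rw [Units.val_div_eq_div_val]
  rw [e, ← Units.val_inv_eq_inv_val] at h1
  have h3 := div_mem_stalkUnits_of_isNumer h2 h1
  have : (divZero hUFD h - divZero hUFD h⁻¹).eq x / (CaDiv.principal h).eq x =
      (divZero hUFD h).eq x / h / (divZero hUFD h⁻¹).eq x := by
    rw [CaDiv.eq_sub, CaDiv.eq_principal, div_right_comm]
  rw [this]
  exact h3

/-- `div₀ h ∼ div₀ h⁻¹` (linear equivalence). -/
theorem divZero_linEquiv_divZero_inv :
    CaDiv.LinEquiv (divZero hUFD h) (divZero hUFD h⁻¹) := by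
  refine ⟨h, fun x => ?_⟩
  have := divZero_sub_divZero_inv_same hUFD h x
  rw [CaDiv.eq_sub, CaDiv.eq_principal] at this
  rw [CaDiv.eq_add, CaDiv.eq_principal, ← div_div]
  exact this

end DivZero

end Fermat.Agent.JAC.Div2.DivZero69
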