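/-
S26-track, chapter DIV2 (helper69), brick D2.5: existence of an effective Cartier divisor
with affine complement.
-/
import Fermat.Agent.JAC.Div2.DivZero69

set_option autoImplicit false

universe u v

open AlgebraicGeometry CategoryTheory TopologicalSpace Opposite
open Fermat.Agent.JAC.Div2.Stalk69 Fermat.Agent.JAC.Div2.CaDiv69 Fermat.Agent.JAC.Div2.Gam69
open Fermat.Agent.JAC.Div2.DivZero69

namespace Fermat.Agent.JAC.Div2.Exists69

variable {X : Scheme.{u}} [IsIntegral X]

/-! ### The complement of an effective Cartier divisor is affine over `X` -/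

/-- Locally, the complement of the support of an effective Cartier divisor is a basic open. -/
theorem exists_affine_inf_suppCompl_eq_basicOpen (D : CaDiv X) (hD : D.IsEffective) (x : X) :
    ∃ (W : X.Opens) (_ : IsAffineOpen W) (a : Γ(X, W)), x ∈ W ∧
      D.suppCompl ⊓ W = X.basicOpen a := by
  set h := D.eq x with hh
  obtain ⟨V₁, hxV₁, hV₁⟩ := D.coh x
  obtain ⟨V₂, hxV₂, s₂, hs₂⟩ := mem_stalkRing_iff.mp (hD x)
  obtain ⟨_, ⟨W, hW, rfl⟩, hxW, hWV⟩ :=
    X.isBasis_affineOpens.exists_subset_of_mem_open (show x ∈ (V₁ ⊓ V₂ : X.Opens) from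
      ⟨hxV₁, hxV₂⟩) (V₁ ⊓ V₂).isOpen
  have hWV₁ : W ≤ V₁ := fun y hy => (hWV hy).1
  have hWV₂ : W ≤ V₂ := fun y hy => (hWV hy).2
  have : Nonempty W := ⟨⟨x, hxW⟩⟩
  have : Nonempty V₂ := ⟨⟨x, hxV₂⟩⟩
  set a : Γ(X, W) := X.presheaf.map (homOfLE hWV₂).op s₂ with ha_def
  have hga : X.germToFunctionField W a = (h : X.functionField) := by
    rw [ha_def, germToFunctionField_res hWV₂ s₂, ← hs₂]
  have ha : X.germToFunctionField W a ≠ 0 := by rw [hga]; exact h.ne_zero
  have hmk : Units.mk0 _ ha = h := Units.ext hga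
  refine ⟨W, hW, a, hxW, ?_⟩
  ext y
  constructor
  · rintro ⟨hy, hyW⟩
    rw [SetLike.mem_coe, mem_basicOpen_iff_mem_stalkUnits a ha hyW, hmk]
    have hu := CaDiv.mem_suppCompl_iff.mp hy
    have : h = (D.eq y / h)⁻¹ * D.eq y := by
      rw [inv_div, div_mul_cancel]
    rw [this]
    exact mul_mem (inv_mem (hV₁ y (hWV₁ hyW))) hu
  · intro hy
    have hyW : y ∈ W := X.basicOpen_le a hy
    have hu := (mem_basicOpen_iff_mem_stalkUnits a ha hyW).mp hy
    rw [hmk] at hu
    refine ⟨?_, hyW⟩
    rw [SetLike.mem_coe, CaDiv.mem_suppCompl_iff]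
    have : D.eq y = D.eq y / h * h := by simp
    rw [this]
    exact mul_mem (hV₁ y (hWV₁ hyW)) hu

/-- The inclusion of the complement of an effective Cartier divisor is an affine morphism. -/
theorem isAffineHom_suppCompl_ι (D : CaDiv X) (hD : D.IsEffective) :
    IsAffineHom D.suppCompl.ι := by
  refine isAffineHom_of_forall_exists_isAffineOpen _ fun x => ?_
  obtain ⟨W, hW, a, hxW, hWa⟩ := exists_affine_inf_suppCompl_eq_basicOpen D hD x
  refine ⟨W, hxW, hW, ?_⟩
  rw [← D.suppCompl.ι.isAffineOpen_iff_of_isOpenImmersion,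
    D.suppCompl.ι.image_preimage_eq_opensRange_inf, Scheme.Opens.opensRange_ι, hWa]
  exact hW.basicOpen a

/-- If the complement of an effective Cartier divisor lies in an affine open, it is affine. -/
theorem isAffineOpen_suppCompl_of_le (D : CaDiv X) (hD : D.IsEffective) {U : X.Opens}
    (hU : IsAffineOpen U) (hle : D.suppCompl ≤ U) : IsAffineOpen D.suppCompl := by
  have := isAffineHom_suppCompl_ι D hD
  have h1 : IsAffineOpen (D.suppCompl.ι ⁻¹ᵁ U) := hU.preimage D.suppCompl.ι
  have h2 : D.suppCompl.ι ⁻¹ᵁ U = ⊤ := by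
    ext y
    simp only [Opens.coe_top, Set.mem_univ, iff_true]
    exact hle y.2
  rw [h2] at h1
  have h3 : IsAffine (⊤ : D.suppCompl.toScheme.Opens).toScheme := h1
  exact IsAffine.of_isIso (D.suppCompl.toScheme.topIso).inv

/-! ### Finite sums of effective divisors -/

theorem isEffective_sum {ι : Type*} (t : Finset ι) (D : ι → CaDiv X)
    (h : ∀ i ∈ t, (D i).IsEffective) : (∑ i ∈ t, D i).IsEffective := by
  classical
  induction t using Finset.induction_on with
  | empty => simpa using CaDiv.isEffective_zero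
  | insert i t hi ih =>
    rw [Finset.sum_insert hi]
    exact (h i (Finset.mem_insert_self i t)).add (ih fun j hj => h j (Finset.mem_insert_of_mem hj))

theorem supp_sum {ι : Type*} (t : Finset ι) (D : ι → CaDiv X)
    (h : ∀ i ∈ t, (D i).IsEffective) : (∑ i ∈ t, D i).supp = ⋃ i ∈ t, (D i).supp := by
  classical
  induction t using Finset.induction_on with
  | empty => simp [CaDiv.supp_zero]
  | insert i t hi ih =>
    rw [Finset.sum_insert hi, CaDiv.supp_add (h i (Finset.mem_insert_self i t))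
      (isEffective_sum t D fun j hj => h j (Finset.mem_insert_of_mem hj)),
      ih fun j hj => h j (Finset.mem_insert_of_mem hj), Finset.set_biUnion_insert]

theorem mem_suppCompl_sum_iff {ι : Type*} (t : Finset ι) (D : ι → CaDiv X)
    (h : ∀ i ∈ t, (D i).IsEffective) {x : X} :
    x ∈ (∑ i ∈ t, D i).suppCompl ↔ ∀ i ∈ t, x ∈ (D i).suppCompl := by
  change x ∈ ((∑ i ∈ t, D i).supp)ᶜ ↔ ∀ i ∈ t, x ∈ ((D i).supp)ᶜ
  rw [supp_sum t D h]
  simp

/-! ### Existence -/

/-- On an affine open `W`, a nonempty open `U` contains a nonempty basic open of `W`. -/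
theorem exists_section_basicOpen_le {W : X.Opens} (hW : IsAffineOpen W) [Nonempty W]
    (U : X.Opens) [Nonempty U] :
    ∃ s : Γ(X, W), X.germToFunctionField W s ≠ 0 ∧ X.basicOpen s ≤ U := by
  have hηU : genericPoint X ∈ U := genericPoint_mem_of_mem (Classical.arbitrary U).2
  have hηW : genericPoint X ∈ W := genericPoint_mem_of_mem (Classical.arbitrary W).2
  obtain ⟨s, hs, hη⟩ := hW.exists_basicOpen_le (V := U) ⟨genericPoint X, hηU⟩ hηW
  refine ⟨s, ?_, hs⟩
  have := (Scheme.mem_basicOpen X s _ hηW).mp hη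
  exact this.ne_zero

variable [IsLocallyNoetherian X]

/-- **Existence of an effective Cartier divisor with affine complement** inside a given nonempty
affine open, on a quasi-compact locally noetherian integral scheme with factorial local rings.
Moreover the regular functions on the complement are `⋃ₘ L(mD)`. -/
theorem exists_effective_affine_compl [CompactSpace X]
    (hUFD : ∀ x : X, UniqueFactorizationMonoid (X.presheaf.stalk x))
    (U : X.Opens) (hU : IsAffineOpen U) [Nonempty U] :
    ∃ D : CaDiv X, D.IsEffective ∧ D.suppCompl ≤ U ∧ IsAffineOpen D.suppCompl ∧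
      ∀ f : X.functionField, f ∈ sectionRing X D.suppCompl ↔ ∃ m : ℕ, f ∈ CaDiv.L (m • D) := by
  classical
  -- affine neighbourhoods
  have hcov : ∀ x : X, ∃ W : X.Opens, IsAffineOpen W ∧ x ∈ W := fun x => by
    obtain ⟨_, ⟨W, hW, rfl⟩, hxW, -⟩ :=
      X.isBasis_affineOpens.exists_subset_of_mem_open (Set.mem_univ x) isOpen_univ
    exact ⟨W, hW, hxW⟩
  choose W hW hxW using hcov
  obtain ⟨t, ht⟩ := isCompact_univ.elim_finite_subcover (fun x => (W x : Set X))
    (fun x => (W x).isOpen) (fun x _ => Set.mem_iUnion.mpr ⟨x, hxW x⟩)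
  have hne : ∀ x, Nonempty (W x) := fun x => ⟨⟨x, hxW x⟩⟩
  have hsec : ∀ x, ∃ s : Γ(X, W x), X.germToFunctionField (W x) s ≠ 0 ∧ X.basicOpen s ≤ U :=
    fun x => exists_section_basicOpen_le (hW x) U
  choose s hs0 hsU using hsec
  let h : X → X.functionFieldˣ := fun x => Units.mk0 _ (hs0 x)
  let D : CaDiv X := ∑ x ∈ t, divZero hUFD (h x)
  have hDeff : D.IsEffective := isEffective_sum t _ fun x _ => divZero_isEffective hUFD (h x)
  have hDU : D.suppCompl ≤ U := by
    intro y hy
    have hy : ∀ x ∈ t, y ∈ (divZero hUFD (h x)).suppCompl :=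
      (mem_suppCompl_sum_iff t _ fun x _ => divZero_isEffective hUFD (h x)).mp hy
    obtain ⟨x, hx⟩ := Set.mem_iUnion.mp (ht (Set.mem_univ y))
    obtain ⟨hxt, hyW⟩ := Set.mem_iUnion.mp hx
    have hinv := (mem_suppCompl_divZero_iff hUFD (h x)).mp (hy x hxt)
    have hreg : ((h x : X.functionFieldˣ) : X.functionField) ∈ stalkRing X y :=
      germ_mem_stalkRing hyW (s x)
    have hu : h x ∈ stalkUnits X y := ⟨hreg, by rwa [Units.val_inv_eq_inv_val]⟩
    exact hsU x ((mem_basicOpen_iff_mem_stalkUnits (s x) (hs0 x) hyW).mpr hu)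
  exact ⟨D, hDeff, hDU, isAffineOpen_suppCompl_of_le D hDeff hU hDU,
    fun f => mem_sectionRing_suppCompl_iff D hDeff⟩

end Fermat.Agent.JAC.Div2.Exists69
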