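/-
S26-track, chapter DIV2 (helper69), brick D2.8: centres and dominant morphisms
(hypothesis (c) "CENTRES" of the NORM chapter).
-/
import Fermat.Agent.JAC.Div2.Proper69
import Fermat.Agent.JAC.Div2.Pull69

set_option autoImplicit false

universe u

open AlgebraicGeometry CategoryTheory TopologicalSpace Opposite IsLocalRing
open Fermat.Agent.JAC.Div2.Stalk69 Fermat.Agent.JAC.Div2.CaDiv69
open Fermat.Agent.JAC.Div2.Proper69 Fermat.Agent.JAC.Div2.Pull69

namespace Fermat.Agent.JAC.Div2.Center69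

variable {X Y : Scheme.{u}} [IsIntegral X] [IsIntegral Y] {K : Type u} [CommRing K]

/-- **Centres along a dominant morphism.**  `g : Y ⟶ X` a dominant morphism of integral
`K`-schemes, `Y` universally closed (e.g. proper) over `K`, `X` separated over `K`.  If a
valuation subring `O` of `K(Y)` contains `g^#(O_{X,x})`, then `O` dominates the local ring of some
`w ∈ Y` such that `g w` is a generization of `x`; in particular `O_{X,x} ⊆ O_{X,g w}`. -/
theorem exists_center_over (g : Y ⟶ X) [IsDominant g] (fX : X ⟶ Spec (CommRingCat.of K))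
    (fY : Y ⟶ Spec (CommRingCat.of K)) (hg : g ≫ fX = fY)
    (hY : ValuativeCriterion.Existence fY) (hX : ValuativeCriterion.Uniqueness fX)
    (O : ValuationSubring Y.functionField) (x : X)
    (hx : (stalkRing X x).map (pullFun g) ≤ O.toSubring) :
    ∃ w : Y, stalkRing Y w ≤ O.toSubring ∧
      (∀ a ∈ stalkRing Y w, a ≠ 0 → a⁻¹ ∈ O → a⁻¹ ∈ stalkRing Y w) ∧
      g w ⤳ x ∧ stalkRing X x ≤ stalkRing X (g w) := by
  -- `K ⊆ O`
  have hK : ∀ k : K, toFunctionFieldOfHom fY k ∈ O := fun k => by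
    rw [← pullFun_toFunctionFieldOfHom g fX fY hg k]
    exact hx ⟨_, (regularScalars_of_hom fX).algebraMap_mem k x, rfl⟩
  obtain ⟨w, hw, hwdom⟩ := exists_center_of_existence fY hY O hK
  -- the induced valuation subring of `K(X)`
  set O' : ValuationSubring X.functionField := O.comap (pullFun g) with hO'
  have hxO' : stalkRing X x ≤ O'.toSubring := fun a ha => hx ⟨a, ha, rfl⟩
  have hgwO' : stalkRing X (g w) ≤ O'.toSubring := fun a ha =>
    hw (pullFun_mem_stalkRing g ha)
  have hdom' : ∀ a ∈ stalkRing X (g w), a ≠ 0 → a⁻¹ ∈ O' → a⁻¹ ∈ stalkRing X (g w) := by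
    intro a ha ha0 hainv
    have h1 : pullFun g a ∈ stalkRing Y w := pullFun_mem_stalkRing g ha
    have h2 : pullFun g a ≠ 0 := (map_ne_zero (pullFun g)).mpr ha0
    have h3 : (pullFun g a)⁻¹ ∈ O := by
      rw [← map_inv₀]; exact hainv
    have h4 := hwdom _ h1 h2 h3
    have h5 : pullUnits g (Units.mk0 a ha0) ∈ stalkUnits Y w := by
      refine ⟨h1, ?_⟩
      rw [← map_inv, coe_pullUnits, Units.val_inv_eq_inv_val, Units.val_mk0, map_inv₀]
      exact h4
    have h6 := mem_stalkUnits_of_pullUnits_mem g (u := Units.mk0 a ha0) ha h5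
    exact inv_mem_of_mem_stalkUnits h6
  have hspec : g w ⤳ x := specializes_of_stalkRing_le O' fX hX hxO' hgwO' hdom'
  exact ⟨w, hw, hwdom, hspec, stalkRing_le_of_specializes hspec⟩

/-- The same with type class hypotheses. -/
theorem exists_center_over' (g : Y ⟶ X) [IsDominant g] (fX : X ⟶ Spec (CommRingCat.of K))
    (fY : Y ⟶ Spec (CommRingCat.of K)) (hg : g ≫ fX = fY) [UniversallyClosed fY]
    [IsSeparated fX] (O : ValuationSubring Y.functionField) (x : X)
    (hx : (stalkRing X x).map (pullFun g) ≤ O.toSubring) :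
    ∃ w : Y, stalkRing Y w ≤ O.toSubring ∧
      (∀ a ∈ stalkRing Y w, a ≠ 0 → a⁻¹ ∈ O → a⁻¹ ∈ stalkRing Y w) ∧
      g w ⤳ x ∧ stalkRing X x ≤ stalkRing X (g w) :=
  exists_center_over g fX fY hg (existence_of_universallyClosed fY)
    (uniqueness_of_isSeparated fX) O x hx

end Fermat.Agent.JAC.Div2.Center69
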