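/-
S26-track, chapter DIV2 (helper69), brick D2.9: generisation.
On an integral scheme separated over `K`, inclusion of local rings inside the function field
is the same as generisation of points; local equations of a Cartier divisor are stable under
generisation.
-/
import Fermat.Agent.JAC.Div2.Proper69

set_option autoImplicit false

universe u

open AlgebraicGeometry CategoryTheory TopologicalSpace Opposite IsLocalRing
open Fermat.Agent.JAC.Div2.Stalk69 Fermat.Agent.JAC.Div2.CaDiv69
open Fermat.Agent.JAC.Div2.Proper69

namespace Fermat.Agent.JAC.Div2.Gen69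

variable {X : Scheme.{u}} [IsIntegral X] {K : Type u} [CommRing K]

/-- Every local ring of `X` is dominated by some valuation subring of the function field. -/
theorem exists_valuationSubring_dominating (y : X) :
    ∃ V : ValuationSubring X.functionField, stalkRing X y ≤ V.toSubring ∧
      ∀ a ∈ stalkRing X y, a ≠ 0 → a⁻¹ ∈ V → a⁻¹ ∈ stalkRing X y := by
  obtain ⟨V, hV, hloc⟩ := IsLocalRing.exists_factor_valuationRing
    (algebraMap (X.presheaf.stalk y) X.functionField)
  refine ⟨V, ?_, ?_⟩
  · rintro _ ⟨s, rfl⟩
    exact hV s
  · rintro _ ⟨s, rfl⟩ hs0 hsinv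
    -- the image of `s` in `V` is a unit, so `s` is a unit
    have hu : IsUnit ((algebraMap (X.presheaf.stalk y) X.functionField).codRestrict
        V.toSubring hV s) := by
      refine IsUnit.of_mul_eq_one ⟨_, hsinv⟩ (Subtype.ext ?_)
      change algebraMap (X.presheaf.stalk y) X.functionField s *
        (algebraMap (X.presheaf.stalk y) X.functionField s)⁻¹ = 1
      exact mul_inv_cancel₀ hs0
    obtain ⟨v, rfl⟩ := hloc.map_nonunit s hu
    refine ⟨((v⁻¹ : (X.presheaf.stalk y)ˣ) : X.presheaf.stalk y), ?_⟩
    refine (inv_eq_of_mul_eq_one_right ?_).symm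
    rw [← map_mul, Units.mul_inv, map_one]

/-- **Inclusion of local rings is generisation** on a scheme separated over `K`
(uniqueness part of the valuative criterion). -/
theorem specializes_of_stalkRing_le_stalkRing (f : X ⟶ Spec (CommRingCat.of K))
    (hf : ValuativeCriterion.Uniqueness f) {x x' : X} (h : stalkRing X x ≤ stalkRing X x') :
    x' ⤳ x := by
  obtain ⟨V, hV, hdom⟩ := exists_valuationSubring_dominating x'
  exact specializes_of_stalkRing_le V f hf (h.trans hV) hV hdom

theorem stalkRing_le_stalkRing_iff (f : X ⟶ Spec (CommRingCat.of K))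
    (hf : ValuativeCriterion.Uniqueness f) {x x' : X} :
    stalkRing X x ≤ stalkRing X x' ↔ x' ⤳ x :=
  ⟨specializes_of_stalkRing_le_stalkRing f hf, stalkRing_le_of_specializes⟩

/-- The local equation at a point also works at every generisation. -/
theorem eq_div_eq_mem_stalkUnits_of_specializes (D : CaDiv X) {x x' : X} (h : x' ⤳ x) :
    D.eq x' / D.eq x ∈ stalkUnits X x' := by
  obtain ⟨V, hxV, hV⟩ := D.coh x
  exact hV x' (h.mem_open V.isOpen hxV)

/-- Hypothesis (d) of the NORM chapter: on a separated `K`-scheme, `O_x ⊆ O_x'` implies that the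
local equations at `x` and `x'` differ by a unit of `O_x'`. -/
theorem eq_div_eq_mem_stalkUnits_of_stalkRing_le (f : X ⟶ Spec (CommRingCat.of K))
    (hf : ValuativeCriterion.Uniqueness f) (D : CaDiv X) {x x' : X}
    (h : stalkRing X x ≤ stalkRing X x') : D.eq x / D.eq x' ∈ stalkUnits X x' := by
  have := eq_div_eq_mem_stalkUnits_of_specializes D
    (specializes_of_stalkRing_le_stalkRing f hf h)
  rw [← inv_div]
  exact inv_mem this

end Fermat.Agent.JAC.Div2.Gen69
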