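/-
S26-track, chapter DIV2 (helper69), glue brick: the ring of sections over a nonempty open of an
integral `K`-scheme as a `K`-subalgebra of the function field: finite generation on affine opens
(locally of finite type) and generation of the function field.
-/
import Fermat.Agent.JAC.Div2.CaDiv69

set_option autoImplicit false
set_option linter.style.haveILetI false

universe u

open AlgebraicGeometry CategoryTheory TopologicalSpace Opposite
open Fermat.Agent.JAC.Div2.Stalk69 Fermat.Agent.JAC.Div2.CaDiv69

namespace Fermat.Agent.JAC.Div2.Sections69

noncomputable section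

variable {X : Scheme.{u}} [IsIntegral X] {K : Type u} [CommRing K]

/-- The structure ring map `K → Γ(X, U)` of a `K`-scheme. -/
def structureMap (f : X ⟶ Spec (CommRingCat.of K)) (U : X.Opens) : K →+* Γ(X, U) :=
  ((Scheme.ΓSpecIso (CommRingCat.of K)).inv ≫ f.appLE ⊤ U le_top).hom

/-- The germ map is compatible with the `K`-structures. -/
theorem germ_structureMap (f : X ⟶ Spec (CommRingCat.of K)) (U : X.Opens) [Nonempty U] (k : K) :
    X.germToFunctionField U (structureMap f U k) = toFunctionFieldOfHom f k := by
  have h : f.appLE ⊤ U le_top = f.appTop ≫ X.presheaf.map (homOfLE (le_top : U ≤ ⊤)).op := rfl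
  change X.germToFunctionField U
    (f.appLE ⊤ U le_top ((Scheme.ΓSpecIso (CommRingCat.of K)).inv k)) = _
  rw [h]
  exact X.presheaf.germ_res_apply (homOfLE (le_top : U ≤ ⊤)) (genericPoint X) _ _

/-- The ring equivalence between sections over a nonempty open and `sectionRing`. -/
def sectionEquiv (U : X.Opens) [Nonempty U] : Γ(X, U) ≃+* sectionRing X U :=
  RingEquiv.ofBijective
    ((X.germToFunctionField U).hom.codRestrict (sectionRing X U) fun s => germ_mem_sectionRing s)
    ⟨fun _ _ h => Scheme.germToFunctionField_injective X U (congrArg Subtype.val h),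
      fun ⟨_, hf⟩ => by
        obtain ⟨s, rfl⟩ := exists_section_of_mem_sectionRing hf
        exact ⟨s, rfl⟩⟩

@[simp] theorem coe_sectionEquiv (U : X.Opens) [Nonempty U] (s : Γ(X, U)) :
    (sectionEquiv U s : X.functionField) = X.germToFunctionField U s := rfl

/-- The germ map as a `K`-algebra homomorphism (for the `K`-structures `structureMap f U` and
`algebraOfHom f`). -/
def germAlgHom (f : X ⟶ Spec (CommRingCat.of K)) (U : X.Opens) [Nonempty U] :
    letI := (structureMap f U).toAlgebra
    letI := algebraOfHom f
    Γ(X, U) →ₐ[K] X.functionField :=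
  letI := (structureMap f U).toAlgebra
  letI := algebraOfHom f
  { (X.germToFunctionField U).hom with
    commutes' := fun k => germ_structureMap f U k }

theorem sectionAlg_eq_range (f : X ⟶ Spec (CommRingCat.of K)) (U : X.Opens) [Nonempty U] :
    letI := (structureMap f U).toAlgebra
    letI := algebraOfHom f
    haveI := regularScalars_of_hom f
    sectionAlg X K U = (germAlgHom f U).range := by
  letI := (structureMap f U).toAlgebra
  letI := algebraOfHom f
  haveI := regularScalars_of_hom f
  ext a
  rw [mem_sectionAlg_iff, mem_sectionRing_iff_exists]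
  rfl

/-- On an affine open of a `K`-scheme locally of finite type, the algebra of regular functions
is finitely generated. -/
theorem fg_sectionAlg (f : X ⟶ Spec (CommRingCat.of K)) [LocallyOfFiniteType f] (U : X.Opens)
    (hU : IsAffineOpen U) [Nonempty U] :
    letI := algebraOfHom f
    haveI := regularScalars_of_hom f
    (sectionAlg X K U).FG := by
  letI := (structureMap f U).toAlgebra
  letI := algebraOfHom f
  haveI := regularScalars_of_hom f
  have h1 : RingHom.FiniteType (f.appLE ⊤ U le_top).hom :=
    HasRingHomProperty.appLE (P := @LocallyOfFiniteType) f inferInstance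
      ⟨⊤, isAffineOpen_top _⟩ ⟨U, hU⟩ le_top
  have h2 : RingHom.FiniteType (structureMap f U) := by
    have : structureMap f U = (f.appLE ⊤ U le_top).hom.comp
        (Scheme.ΓSpecIso (CommRingCat.of K)).inv.hom := rfl
    rw [this]
    exact h1.comp (RingHom.FiniteType.of_surjective _
      ((Scheme.ΓSpecIso (CommRingCat.of K)).symm.commRingCatIsoToRingEquiv.surjective))
  have h3 : Algebra.FiniteType K Γ(X, U) := h2
  rw [sectionAlg_eq_range f U, ← Algebra.map_top]
  exact Subalgebra.FG.map _ h3.out

/-- The regular functions on a nonempty affine open generate the function field. -/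
theorem adjoin_sectionAlg_eq_top (U : X.Opens)
    (hU : IsAffineOpen U) [Nonempty U] {K' : Type*} [Field K'] [Algebra K' X.functionField]
    [RegularScalars K' X] :
    IntermediateField.adjoin K' ((sectionAlg X K' U : Subalgebra K' X.functionField) :
      Set X.functionField) = ⊤ := by
  rw [eq_top_iff]
  intro a _
  haveI := functionField_isFractionRing_of_isAffineOpen X U hU
  obtain ⟨s, t, -, rfl⟩ := IsFractionRing.div_surjective (A := Γ(X, U)) a
  have hs : algebraMap Γ(X, U) X.functionField s ∈
      IntermediateField.adjoin K' ((sectionAlg X K' U : Subalgebra K' X.functionField) :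
        Set X.functionField) :=
    IntermediateField.subset_adjoin _ _ (germ_mem_sectionRing s)
  have ht : algebraMap Γ(X, U) X.functionField t ∈
      IntermediateField.adjoin K' ((sectionAlg X K' U : Subalgebra K' X.functionField) :
        Set X.functionField) :=
    IntermediateField.subset_adjoin _ _ (germ_mem_sectionRing t)
  exact div_mem hs ht

end

end Fermat.Agent.JAC.Div2.Sections69
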